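import Fermat.Agent.Global.Fund.Local
import Fermat.Agent.Global.CFT.Units

/-!
From the decomposition group of the fixed place to the whole semilocal component, and from all
components to ideles.
-/

set_option autoImplicit false
set_option linter.unusedSectionVars false
set_option synthInstance.maxHeartbeats 100000

noncomputable section

namespace FLTAgent.Global

variable {q : Nat.Primes} {L : Level}

lemma unrAt_iff {L : Level} : L.UnrAt q ↔
    ∀ A : ValuationSubring QQbar, A.LiesOverPrime (q : ℕ) → A.inertiaSubgroupIn ℚ ≤ L.grp := Iff.rfl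

lemma Level.UnrAt.sup {L L' : Level} (h : L.UnrAt q) (h' : L'.UnrAt q) : (L.sup L').UnrAt q := by
  intro A hA
  show _ ≤ (L.fld ⊔ L'.fld).fixingSubgroup
  rw [IntermediateField.fixingSubgroup_sup]
  exact le_inf (h A hA) (h' A hA)

lemma dec_le_placeSub_one : dec q ≤ placeSub L q (⊤ : Subgroup GQ) 1 := by
  rintro _ ⟨τ, rfl⟩
  refine ⟨trivial, ?_⟩
  rw [one_mul, ← mul_one (loc q τ), place_loc_mul]

lemma placeSub_one_eq : placeSub L q (⊤ : Subgroup GQ) 1 = dec q ⊔ L.grp :=
  le_antisymm (fun h hh => place_eq_place_one_iff.1 (by simpa using hh.2))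
    (sup_le dec_le_placeSub_one (grp_le_placeSub L q le_top 1))

open scoped Classical in
/-- A semilocal element is the sum of the conjugates of its component at the fixed place. -/
theorem csum_projAt_one (x : Semi q) :
    csum (⊤ : Subgroup GQ) (placeSub L q (⊤ : Subgroup GQ) 1) (fun t => projAt (atPlace L q 1) t x) = x := by
  have hf : Finite (↥(⊤ : Subgroup GQ) ⧸ (placeSub L q (⊤ : Subgroup GQ) 1).subgroupOf ⊤) :=
    (L.lvl le_top).fin_quot le_top (grp_le_placeSub L q le_top 1)
  let _ := Fintype.ofFinite (↥(⊤ : Subgroup GQ) ⧸ (placeSub L q (⊤ : Subgroup GQ) 1).subgroupOf ⊤)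
  refine semi_ext fun z => ?_
  set D := placeSub L q (⊤ : Subgroup GQ) 1 with hD
  have hval : ∀ t, sval (projAt (atPlace L q 1) t x) z
      = if z * t ∈ D then sval x z else 1 := fun t => by
    rw [projAt, sval_smul, sval_atPlace, sval_smul, mul_inv_cancel_right, hD, placeSub_one_eq]
    simp only [place_eq_place_one_iff]
  set c : ↥(⊤ : Subgroup GQ) ⧸ D.subgroupOf ⊤ := QuotientGroup.mk ⟨z⁻¹, trivial⟩ with hc
  rw [csum_eq_sum, sval_sum, Finset.prod_eq_single c]
  · rw [hval, if_pos]
    have := (QuotientGroup.out_eq' c).symm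
    rw [hc, QuotientGroup.eq, Subgroup.mem_subgroupOf] at this
    simpa [rep] using this
  · intro c' _ hne
    rw [hval, if_neg]
    intro hp
    refine hne ?_
    rw [hc, ← QuotientGroup.out_eq' c', QuotientGroup.eq, Subgroup.mem_subgroupOf]
    simpa [rep] using inv_mem hp
  · simp

/-- A semilocal class of level `L` that splits on the decomposition group splits. -/
theorem isB2_semi_of_dec {z : GQ → GQ → Semi q} (hz : IsZ2 (⊤ : Subgroup GQ) L.grp z)
    (h : IsB2 (placeSub L q (⊤ : Subgroup GQ) 1) L.grp z) : IsB2 (⊤ : Subgroup GQ) L.grp z := by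
  set D := placeSub L q (⊤ : Subgroup GQ) 1 with hD
  have hN := L.lvl (H := (⊤ : Subgroup GQ)) le_top
  have hND : L.grp ≤ D := grp_le_placeSub L q le_top 1
  obtain ⟨b, hb, hbc⟩ := h
  obtain ⟨β, hβ, hβc⟩ := isB2_projSum hN le_top hND (hN.fin_quot le_top hND)
    (e := atPlace L q 1) (fun r hr a => atPlace_smul_of_place hr.2 a) hz
    (b := fun r => atPlace L q 1 (b r)) (fun r hr s hs => congrArg _ (hb r hr s hs))
    (fun r hr s hs => by
      rw [hbc r hr s hs]
      simp only [dd1]
      rw [map_add, map_sub, atPlace_smul_of_place hr.2])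
  exact ⟨β, hβ, fun g hg k hk => (csum_projAt_one (z g k)).symm.trans (hβc g hg k hk)⟩

/-- An idele class of level `L` splits if all its components do, almost all in units. -/
theorem isB2_idele_assemble {z : GQ → GQ → Idele} (hz : IsZ2 (⊤ : Subgroup GQ) L.grp z)
    (T : Finset Nat.Primes)
    (h : ∀ q : Nat.Primes, ∃ b : GQ → Semi q, IsLvl1 (⊤ : Subgroup GQ) L.grp b ∧
      (q ∉ T → ∀ g, b g ∈ semiUnit q) ∧ ∀ g k, comp q (z g k) = dd1 b g k) :
    IsB2 (⊤ : Subgroup GQ) L.grp z := by
  choose b hb hbu hbc using h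
  have hN := L.lvl (H := (⊤ : Subgroup GQ)) le_top
  have hzq : ∀ q, IsZ2 (⊤ : Subgroup GQ) L.grp (fun g k => comp q (z g k)) := fun q =>
    ⟨fun g hg k hk s hs t ht => congrArg _ (hz.1 g hg k hk s hs t ht), fun g hg k hk j hj => by
      have := congrArg (comp q) (hz.2 g hg k hk j hj)
      rwa [map_sub, map_add, map_sub, comp_smul, map_zero] at this⟩
  let B : GQ → Idele := fun g => mkIdele L (fun q => b q g)
    (fun q s hs => (hzq q).primitive_smul_eq hN (hb q) (fun g _ k _ => hbc q g k) trivial hs)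
    (T.finite_toSet.subset fun q hq => by_contra fun hT => hq (hbu q hT g))
  refine ⟨B, fun g hg s hs => idele_ext fun q => hb q g hg s hs, fun g _ k _ => idele_ext fun q => ?_⟩
  rw [hbc q g k, dd1, dd1, map_add, map_sub, comp_smul]
  rfl

end FLTAgent.Global
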