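import Fermat.Agent.Global.Duality.Pairing
import Fermat.Agent.Global.Duality.Local

/-!
Extensions coming from unit ideles outside `S` are orthogonal to `Ш¹_S`.
-/

set_option autoImplicit false
set_option linter.unusedSectionVars false
set_option linter.unusedVariables false
set_option synthInstance.maxHeartbeats 100000

noncomputable section

namespace FLTAgent.Global

variable (p : ℕ) [Fact p.Prime] (S : Finset Nat.Primes) (X : Type*) [AddCommGroup X] [DistribMulAction GQ X]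

/-- `X` is killed by `p` and trivialised by a level unramified outside `S` that contains `μ_p`. -/
structure SModule : Prop where
  tors : ∀ x : X, p • x = 0
  level : ∃ K : Level, FixesMu p K.grp ∧ (∀ q ∉ S, K.UnrAt q) ∧ ∀ s ∈ K.grp, ∀ x : X, s • x = x

variable {X}

/-- A cocycle in `Ш¹_S(X)`. -/
structure IsSha (f : GQ → X) : Prop where
  unr : ∃ L : Level, (∀ q ∉ S, L.UnrAt q) ∧ IsZ1 (⊤ : Subgroup GQ) L.grp f
  loc : ∀ q ∈ S, IsB1 (dec q) f

/-- An extension coming from ideles that are units outside `S`, with trivial twisting there. -/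
def InU (e : Pre GQ X Cl) : Prop :=
  ∃ (Z : Level) (eU : Pre GQ X Idele), IsExt (⊤ : Subgroup GQ) Z.grp eU ∧
    (∀ q ∉ S, (∀ x, comp q (eU.1 x) ∈ semiUnit q) ∧ ∀ g m, comp q (eU.2 g m) = 0) ∧
    ExtRel (⊤ : Subgroup GQ) (Pre.map toCl eU) e

variable {p S}

lemma InU.congr {e e' : Pre GQ X Cl} (h : InU S e) (h' : ExtRel (⊤ : Subgroup GQ) e e') : InU S e' := by
  obtain ⟨Z, eU, h1, h2, h3⟩ := h
  exact ⟨Z, eU, h1, h2, h3.trans h'⟩

lemma InU.add {e e' : Pre GQ X Cl} (h : InU S e) (h' : InU S e') : InU S (e + e') := by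
  obtain ⟨Z, a, ha, hu, hr⟩ := h
  obtain ⟨Z', a', ha', hu', hr'⟩ := h'
  refine ⟨Z.sup Z', a + a', (ha.mono le_rfl (Z.sup_left Z')).add (ha'.mono le_rfl (Z.sup_right Z')),
    fun q hq => ⟨fun x => ?_, fun g m => ?_⟩, ?_⟩
  · show comp q (a.1 x + a'.1 x) ∈ _
    rw [map_add]; exact (semiUnit q).add_mem ((hu q hq).1 x) ((hu' q hq).1 x)
  · show comp q (a.2 g m + a'.2 g m) = 0
    rw [map_add, (hu q hq).2, (hu' q hq).2, add_zero]
  · rw [map_add]; exact hr.add hr'

lemma inU_zero : InU S (0 : Pre GQ X Cl) :=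
  ⟨Level.bot, 0, isExt_zero, fun q _ => ⟨fun x => by
    show comp q 0 ∈ _
    rw [map_zero]; exact zero_mem _, fun g m => map_zero (comp q)⟩, by rw [map_zero]; exact ExtRel.refl _ _⟩

lemma InU.nsmul {e : Pre GQ X Cl} (h : InU S e) (n : ℕ) : InU S (n • e) := by
  induction n with
  | zero => rw [zero_nsmul]; exact inU_zero
  | succ n ih => rw [succ_nsmul]; exact ih.add h

lemma IsSha.apply_dec {f : GQ → X} (hf : IsSha S f) {q : Nat.Primes} (hq : q ∈ S) {Z : Level}
    (hZ : IsZ1 (⊤ : Subgroup GQ) Z.grp f) (hX : ∀ s ∈ Z.grp, ∀ x : X, s • x = x) :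
    ∃ m : X, ∀ g ∈ placeSub Z q (⊤ : Subgroup GQ) 1, f g = dd0 m g := by
  obtain ⟨m, hm⟩ := hf.loc q hq
  refine ⟨m, fun g hg => ?_⟩
  rw [placeSub_one_eq] at hg
  have hn := Z.grp_normal
  rw [← SetLike.mem_coe, Subgroup.mul_normal] at hg
  obtain ⟨d, hd, s, hs, rfl⟩ := hg
  rw [hZ.1 d trivial s hs, hm d hd]
  simp only [dd0, mul_smul, hX s hs]

/-- **Orthogonality.** -/
theorem clPair_eq_zero_of_inU (hp2 : p ≠ 2) (hS : SModule p S X) {L : Level} (hL : XLevel p X L)
    {e : Pre GQ X Cl} (he : IsExt (⊤ : Subgroup GQ) L.grp e) (hu : InU S e) {f : GQ → X}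
    (hf : IsSha S f) : clPair p e f = 0 := by
  classical
  obtain ⟨Lf, hLf, hfz⟩ := hf.unr
  obtain ⟨K, hKμ, hK, hKX⟩ := hS.level
  obtain ⟨Z, eU, hU, hcomp, hrel⟩ := hu
  set Z₀ := Lf.sup K with hZ₀
  set W := (L.sup Z).sup Z₀ with hW
  have hWL : W.grp ≤ L.grp := ((L.sup Z).sup_left Z₀).trans (L.sup_left Z)
  have hWZ : W.grp ≤ Z.grp := ((L.sup Z).sup_left Z₀).trans (L.sup_right Z)
  have hW0 : W.grp ≤ Z₀.grp := (L.sup Z).sup_right Z₀
  have hXW : XLevel p X W := hL.mono hWL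
  have hU' := hU.mono (H' := (⊤ : Subgroup GQ)) le_rfl hWZ
  have hf' : IsZ1 (⊤ : Subgroup GQ) W.grp f := hfz.mono le_rfl (hW0.trans (Lf.sup_left K))
  rw [← clPair_congr hp2 hXW hS.tors (he.mono le_rfl hWL) hf' hrel]
  refine clPair_eq_zero hp2 (Z := W) ?_
  obtain ⟨b, hb, hbc⟩ : IsB2 (⊤ : Subgroup GQ) W.grp (pairC eU f) := by
    refine isB2_idele_assemble (isZ2_pairC hXW.triv hU' hf') S fun q => ?_
    set eq : Pre GQ X (Semi q) := Pre.map (comp q) eU with heq
    have heqx : IsExt (⊤ : Subgroup GQ) W.grp eq := hU'.map (comp_smul q)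
    have hpair : ∀ g k, comp q (pairC eU f g k) = pairC eq f g k := fun g k => (pairC_map eU f g k).symm
    by_cases hq : q ∈ S
    · obtain ⟨m, hm⟩ := hf.apply_dec hq hf' hXW.triv
      set D := placeSub W q (⊤ : Subgroup GQ) 1 with hD
      have hlD : Lvl D W.grp := (W.lvl le_top).sub_left le_top (grp_le_placeSub W q le_top 1)
      obtain ⟨b, hb, hbc⟩ := isB2_semi_of_dec (isZ2_pairC hXW.triv heqx hf')
        ((isB2_pairC_dd0 hlD hXW.triv (heqx.mono le_top le_rfl) m).congr fun g hg k hk => by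
          simp only [pairC, hm g hg, hm k hk])
      exact ⟨b, hb, fun h => absurd hq h, fun g k => by rw [hpair, hbc g trivial k trivial]⟩
    · obtain ⟨hu1, hu2⟩ := hcomp q hq
      have hzero : ∀ g, eq.2 g = 0 := fun g => Fn.ext fun m => hu2 g m
      have h0 : IsExt (⊤ : Subgroup GQ) Z₀.grp eq :=
        ⟨heqx.sym, ⟨fun g _ s _ => by rw [hzero, hzero], fun g _ k _ => by
          rw [hzero, hzero, hzero, smul_zero, add_zero]⟩, heqx.eqv⟩
      obtain ⟨b, hb, hbu, hbc⟩ := isB2_semiUnit Z₀ q ((hLf q hq).sup (hK q hq))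
        (H := (⊤ : Subgroup GQ)) le_top
        (isZ2_pairC (fun s hs => hKX s (Lf.sup_right K hs)) h0 (hfz.mono le_rfl (Lf.sup_left K)))
        fun g _ k _ => by
          simp only [pairC, hzero, Fn.zero_apply, zero_add]
          exact hu1 _
      exact ⟨b, hb.mono le_rfl hW0, fun _ g => hbu g trivial, fun g k => by rw [hpair, hbc g trivial k trivial]⟩
  refine ⟨fun g => toCl (b g), fun g hg s hs => congrArg toCl (hb g hg s hs), fun g hg k hk => ?_⟩
  rw [pairC_map, hbc g hg k hk]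
  simp only [dd1, map_add, map_sub, smul_toCl]

end FLTAgent.Global
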