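import Fermat.Agent.Global.Duality.LocalCaps

/-!
An extension by classes orthogonal to `Ш¹_S` comes from unit ideles outside `S`, up to a multiple
prime to `p`.
-/

set_option autoImplicit false
set_option linter.unusedSectionVars false
set_option linter.unusedVariables false
set_option synthInstance.maxHeartbeats 100000

noncomputable section

namespace FLTAgent.Global

variable {p : ℕ} [Fact p.Prime] {S : Finset Nat.Primes} {X : Type*} [AddCommGroup X] [DistribMulAction GQ X]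

lemma SModule.exists_normData (hp2 : p ≠ 2) (hS : SModule p S X) (hpS : (⟨p, Fact.out⟩ : Nat.Primes) ∈ S) :
    ∃ K L₀ : Level, FixesMu p K.grp ∧ (∀ q ∉ S, K.UnrAt q) ∧ NormData p S X K L₀ ∧
      ∀ L' : Level, (∀ q ∉ S, L'.UnrAt q) → L'.grp ≤ K.grp → ∀ f : GQ → ZMod p,
        (∀ g ∈ K.grp, ∀ h ∈ K.grp, f (g * h) = f g + f h) → (∀ s ∈ L'.grp, f s = 0) →
          ∀ s ∈ L₀.grp, f s = 0 := by
  obtain ⟨K, hμ, hK, hX⟩ := hS.level
  obtain ⟨L₀, hle, hfac, hnorm⟩ := exists_norm_group hp2 S hpS K hμ hK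
  exact ⟨K, L₀, hμ, hK, ⟨hle, hX, hnorm⟩, hfac⟩

/-- A cocycle of `L` that is trivial on the finitely many relevant local groups is in `Ш¹_S`. -/
theorem isSha_of_local (hS : SModule p S X) {L : Level} {f : GQ → X}
    (hf : IsZ1 (⊤ : Subgroup GQ) L.grp f)
    (hloc : ∀ q ∈ S, ∃ P : Subgroup GQ, L.grp ≤ P ∧ P ≤ dec q ⊔ L.grp ∧ ¬ p ∣ P.relIndex (dec q ⊔ L.grp) ∧
      IsB1 P f)
    (hram : ∀ q ∉ S, ¬ L.UnrAt q → ∃ I : Subgroup GQ, L.grp ≤ I ∧ I ≤ inertiaAt q ⊔ L.grp ∧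
      ¬ p ∣ I.relIndex (inertiaAt q ⊔ L.grp) ∧ IsB1 I f) :
    IsSha S f := by
  obtain ⟨K, -, hK, hX⟩ := hS.level
  refine ⟨?_, fun q hq => ?_⟩
  · -- the level
    have hKn := K.grp_normal
    have hmul : ∀ g ∈ K.grp, ∀ h, f (g * h) = f h + f g := fun g hg h => by
      rw [hf.2 g trivial h trivial, hX g hg]
    let Hf : Subgroup GQ :=
      { carrier := {g | g ∈ K.grp ∧ f g = 0}
        one_mem' := ⟨K.grp.one_mem, hf.map_one⟩
        mul_mem' := fun {a b} ha hb => ⟨mul_mem ha.1 hb.1, by rw [hmul a ha.1, ha.2, hb.2, add_zero]⟩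
        inv_mem' := fun {a} ha => ⟨inv_mem ha.1, by
          have := hmul a ha.1 a⁻¹
          rw [mul_inv_cancel, hf.map_one, ha.2, add_zero] at this
          exact this.symm⟩ }
    have hn : Hf.Normal := ⟨fun a ha g => by
      refine ⟨hKn.conj_mem a ha.1 g, ?_⟩
      have h1 := hf.2 g trivial a trivial
      rw [ha.2, smul_zero, zero_add] at h1
      have h2 := hf.2 (g * a) trivial g⁻¹ trivial
      rw [h2, h1, mul_smul, hX a ha.1, ← hf.2 g trivial g⁻¹ trivial, mul_inv_cancel, hf.map_one]⟩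
    have hle : (L.sup K).grp ≤ Hf := fun s hs =>
      ⟨L.sup_right K hs, hf.apply_of_mem (L.sup_left K hs)⟩
    obtain ⟨L', hL'⟩ := exists_level_grp_eq (L.sup K) hle hn
    refine ⟨L', fun q hq => unrAt_of_inertiaAt fun s hs => ?_, ?_⟩
    · rw [hL']
      have hsK := inertiaAt_le_of_unrAt (hK q hq) hs
      refine ⟨hsK, ?_⟩
      by_cases hun : L.UnrAt q
      · exact hf.apply_of_mem (inertiaAt_le_of_unrAt hun hs)
      obtain ⟨I, hLI, hIle, hidx, hIB⟩ := hram q hq hun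
      set J := inertiaAt q ⊔ L.grp with hJ
      obtain ⟨m, hm⟩ := isB1_of_sylow hS.tors hIle ((L.lvl (H := J) le_sup_right).fin_quot hIle hLI) hidx
        (hf.mono le_top le_rfl) hIB
      rw [hm s (Subgroup.mem_sup_left hs), dd0, hX s hsK, sub_self]
    · rw [hL']
      refine ⟨fun g _ s hs => ?_, hf.2⟩
      rw [hf.2 g trivial s trivial, hs.2, smul_zero, zero_add]
  · obtain ⟨P, hLP, hPd, hidx, hB⟩ := hloc q hq
    obtain ⟨m, hm⟩ := isB1_of_sylow hS.tors hPd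
      ((L.lvl (H := dec q ⊔ L.grp) le_sup_right).fin_quot hPd hLP) hidx (hf.mono le_top le_rfl) hB
    exact ⟨m, fun g hg => hm g (Subgroup.mem_sup_left hg)⟩

lemma exists_normExt_sum_isExt [Finite X] {L : Level} {u : GQ → GQ → Cl}
    {ι : Type*} (s : Finset ι) {w : ι → GQ → X → ℤ} (hw : ∀ i, IsCycle p (⊤ : Subgroup GQ) L.grp (w i))
    (hu : ∀ i ∈ s, InU S (capExt p (⊤ : Subgroup GQ) L.grp u (w i))) :
    IsCycle p (⊤ : Subgroup GQ) L.grp (∑ i ∈ s, w i) ∧
      InU S (capExt p (⊤ : Subgroup GQ) L.grp u (∑ i ∈ s, w i)) := by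
  classical
  have hl := L.lvl (H := (⊤ : Subgroup GQ)) le_top
  induction s using Finset.induction_on with
  | empty =>
    have h0 : IsCycle p (⊤ : Subgroup GQ) L.grp (0 : GQ → X → ℤ) :=
      ⟨fun _ _ _ _ => rfl, fun _ _ _ _ => by simp, fun _ => by simp [csum_zero]⟩
    rw [Finset.sum_empty]
    exact ⟨h0, inU_zero.congr (extRel_capExt_zero hl).symm⟩
  | insert i s hi ih =>
    obtain ⟨h1, h2⟩ := ih fun j hj => hu j (Finset.mem_insert_of_mem hj)
    rw [Finset.sum_insert hi]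
    exact ⟨(hw i).add' hl h1, ((hu i (Finset.mem_insert_self i s)).add h2).congr (capExt_add hl (hw i) h1).symm⟩

variable [Finite X]

/-- **Kernel.** An extension orthogonal to `Ш¹_S` comes, up to a multiple prime to `p`, from unit
ideles outside `S`. -/
theorem exists_nsmul_inU (hp2 : p ≠ 2) (hpS : (⟨p, Fact.out⟩ : Nat.Primes) ∈ S) (hS : SModule p S X)
    {Le : Level} {e : Pre GQ X Cl} (he : IsExt (⊤ : Subgroup GQ) Le.grp e)
    (hperp : ∀ f : GQ → X, IsSha S f → clPair p e f = 0) :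
    ∃ n : ℕ, ¬ p ∣ n ∧ InU S (n • e) := by
  classical
  have hp := hS.tors
  obtain ⟨K, L₀, hμK, hK, hD, -⟩ := hS.exists_normData hp2 hpS
  obtain ⟨G, hG⟩ := exists_goodLevel (p := p) hp2
  set L := (Le.sup L₀).sup G with hLdef
  have hLe : L.grp ≤ Le.grp := ((Le.sup L₀).sup_left G).trans (Le.sup_left L₀)
  have hL0 : L.grp ≤ L₀.grp := ((Le.sup L₀).sup_left G).trans (Le.sup_right L₀)
  have hX : ∀ s ∈ L.grp, ∀ x : X, s • x = x := fun s hs => hD.triv s (hD.le (hL0 hs))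
  have hXL : XLevel p X L := ⟨hG.mono ((Le.sup L₀).sup_right G), hX⟩
  have hμ := hXL.good.mu
  obtain ⟨u, hu, hC⟩ := exists_classModule hp2 L hμ
  have hl := L.lvl (H := (⊤ : Subgroup GQ)) le_top
  have hp0 : p ≠ 0 := (Fact.out : p.Prime).ne_zero
  have heL := he.mono (H' := (⊤ : Subgroup GQ)) le_rfl hLe
  -- reduction to a cap on a Sylow subgroup
  obtain ⟨P, hLP, ⟨s, hs⟩, hPidx⟩ := exists_sylow_layer (p := p) L (P := L.grp) le_rfl (a := 0)
    (by rw [pow_zero]; exact Subgroup.relIndex_self _)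
  obtain ⟨w, hw, a₀, ha₀, ha₀L, hdec⟩ := (hC P hLP s hs).decomp_on X hX hp (heL.mono le_top le_rfl)
  set W := pushW P w with hWdef
  have hW : IsCycle p (⊤ : Subgroup GQ) L.grp W := hw.push hl le_top hLP hX
  have hrel : ExtRel (⊤ : Subgroup GQ) (P.relIndex ⊤ • e)
      (capExt p (⊤ : Subgroup GQ) L.grp u W + normExt (⊤ : Subgroup GQ) L.grp a₀) :=
    (coresExt_res hl le_top hLP heL).symm.trans ((ExtRel.cores hl le_top hLP hdec).trans
      ((coresExt_add (hl.fin_quot le_top hLP) _ _).trans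
        ((coresExt_capExt hl le_top hLP hX hp0 hu hw).add (coresExt_normExt hl le_top hLP ha₀L))))
  refine ⟨P.relIndex ⊤, by rwa [Subgroup.relIndex_top_right], ?_⟩
  have hnorm := inU_normExt hp hD hL0 ha₀ ha₀L
  suffices hcap : InU S (capExt p (⊤ : Subgroup GQ) L.grp u W) from (hcap.add hnorm).congr hrel.symm
  -- the local groups
  set T := S ∪ (finite_ramified L).toFinset with hT
  have hloc : ∀ q : T, ∃ Q : Subgroup GQ, L.grp ≤ Q ∧ (∃ a : ℕ, L.grp.relIndex Q = p ^ a) ∧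
      ((q : Nat.Primes) ∈ S → Q ≤ dec q ⊔ L.grp ∧ ¬ p ∣ Q.relIndex (dec q ⊔ L.grp)) ∧
      ((q : Nat.Primes) ∉ S → Q ≤ inertiaAt q ⊔ L.grp ∧ ¬ p ∣ Q.relIndex (inertiaAt q ⊔ L.grp)) := by
    intro q
    have h0 : L.grp.relIndex L.grp = p ^ 0 := by rw [pow_zero]; exact Subgroup.relIndex_self _
    by_cases hq : (q : Nat.Primes) ∈ S
    · obtain ⟨Q, h1, h2, h3, h4⟩ := exists_sylow_in L (D := dec q ⊔ L.grp) le_rfl le_sup_right h0
      exact ⟨Q, h1, h3, fun _ => ⟨h2, h4⟩, fun h => absurd hq h⟩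
    · obtain ⟨Q, h1, h2, h3, h4⟩ := exists_sylow_in L (D := inertiaAt q ⊔ L.grp) le_rfl le_sup_right h0
      exact ⟨Q, h1, h3, fun h => absurd h hq, fun _ => ⟨h2, h4⟩⟩
  choose Q hLQ hQp hQS hQram using hloc
  have hvanish : ∀ f : GQ → X, IsZ1 (⊤ : Subgroup GQ) L.grp f → (∀ q, IsB1 (Q q) f) →
      (p : ℤ) ∣ zval (⊤ : Subgroup GQ) L.grp W f := by
    intro f hf hfQ
    have hsha : IsSha S f := isSha_of_local hS hf
      (fun q hq => ⟨Q ⟨q, Finset.mem_union_left _ hq⟩, hLQ _, (hQS _ hq).1, (hQS _ hq).2, hfQ _⟩)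
      fun q hq hun => ⟨Q ⟨q, Finset.mem_union_right _ (by simpa using hun)⟩, hLQ _, (hQram _ hq).1,
        (hQram _ hq).2, hfQ _⟩
    have hex := isExt_capExt hl hX hp0 hu hW
    have hne := isExt_normExt hl ha₀ ha₀L
    have h1 : clPair p (capExt p (⊤ : Subgroup GQ) L.grp u W + normExt (⊤ : Subgroup GQ) L.grp a₀) f = 0 := by
      rw [← clPair_congr hp2 hXL hp (hex.add hne) hf hrel, clPair_nsmul_left hp2 hXL hp heL hf,
        hperp f hsha, mul_zero]
    rw [clPair_add_left hp2 hXL hp hex hne hf, clPair_normExt hp2 hXL ha₀ ha₀L hf, add_zero,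
      clPair_capExt hp2 hXL hu hW hf, mul_eq_zero, ZMod.intCast_zmod_eq_zero_iff_dvd] at h1
    exact h1.resolve_right (capUnit_ne_zero hp2 hXL.good hu hC)
  obtain ⟨v, hv, hzv⟩ := exists_local_cycles hp hl Q (fun _ => le_top) hLQ hX hW hvanish
  have hpush : ∀ q, InU S (capExt p (⊤ : Subgroup GQ) L.grp u (pushW (Q q) (v q))) := by
    intro q
    obtain ⟨a, ha⟩ := hQp q
    by_cases hq : (q : Nat.Primes) ∈ S
    · exact inU_push_dec hp2 hp hD hL0 hμ hu hC hq (hLQ q) (hQS q hq).1 ha (hv q)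
    · refine inU_push_inertia hp2 hp hD hL0 hμ hu hC (q := q) (fun h => hq ?_) (hLQ q) (hQram q hq).1 ?_ ha (hv q)
      · rw [show (q : Nat.Primes) = ⟨p, Fact.out⟩ from Subtype.ext h]
        exact hpS
      · intro t ht
        exact hD.triv t ((sup_le (inertiaAt_le_of_unrAt (hK q hq)) (hL0.trans hD.le)) ((hQram q hq).1 ht))
  obtain ⟨hW', hU'⟩ := exists_normExt_sum_isExt Finset.univ (fun q => (hv q).push hl le_top (hLQ q) hX)
    fun q _ => hpush q
  obtain ⟨α, hα, hαL, hcongr⟩ := capExt_congr_zval hl hX hp hu hW hW' fun f hf => by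
    rw [hzv f hf, finsum_eq_sum_of_fintype]
    simp only [zval_sum hl]
    push_cast
    exact Finset.sum_congr rfl fun q _ => by rw [(hv q).zval_pushW hl le_top (hLQ q) hf.1]
  exact (hU'.add (inU_normExt hp hD hL0 hα hαL)).congr hcongr.symm

end FLTAgent.Global
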