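import Fermat.Agent.Global.Duality.Tame
import Fermat.Agent.Global.Fund.ClassModule

/-!
Levels from open normal subgroups, unramifiedness through the fixed place, Sylow layers inside a
subgroup, and prime-to-`p` descent of coboundaries.
-/

set_option autoImplicit false
set_option linter.unusedSectionVars false
set_option synthInstance.maxHeartbeats 100000

noncomputable section

namespace FLTAgent.Global

open scoped Pointwise

/-- A normal subgroup containing the group of a level is the group of a level. -/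
theorem exists_level_grp_eq (L : Level) {H : Subgroup GQ} (hH : L.grp ≤ H) (hn : H.Normal) :
    ∃ L' : Level, L'.grp = H := by
  have := L.fin
  have ho : IsOpen (H : Set GQ) :=
    Subgroup.isOpen_mono hH (IntermediateField.fixingSubgroup_isOpen L.fld)
  have e : (fixField H).fixingSubgroup = H :=
    InfiniteGalois.fixingSubgroup_fixedField (⟨H, Subgroup.isClosed_of_isOpen H ho⟩ : ClosedSubgroup GQ)
  exact ⟨⟨fixField H, finiteDimensional_fixField L hH,
    (InfiniteGalois.normal_iff_isGalois _).1 (by rw [e]; exact hn)⟩, e⟩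

/-- Unramifiedness can be tested at the fixed place. -/
theorem unrAt_of_inertiaAt {L : Level} {q : Nat.Primes} (h : inertiaAt q ≤ L.grp) : L.UnrAt q := by
  intro A hA g hg
  obtain ⟨τ, hτ⟩ := Frobenius.exists_smul_eq q.2 hA (liesOverPrime_padicPlace q)
  have := h (hτ ▸ Frobenius.inertiaSubgroupIn_conj hg τ)
  have e := L.grp_normal.conj_mem _ this τ⁻¹
  rwa [show τ⁻¹ * (τ * g * τ⁻¹) * τ⁻¹⁻¹ = g by group] at e

variable {p : ℕ} [Fact p.Prime]

/-- A maximal `p`-layer inside a subgroup, containing a given one. -/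
theorem exists_sylow_in (L : Level) {D P : Subgroup GQ} (hLP : L.grp ≤ P) (hPD : P ≤ D) {a : ℕ}
    (ha : L.grp.relIndex P = p ^ a) :
    ∃ P₀ : Subgroup GQ, P ≤ P₀ ∧ P₀ ≤ D ∧ (∃ s : ℕ, L.grp.relIndex P₀ = p ^ s) ∧
      ¬ p ∣ P₀.relIndex D := by
  have hN : Lvl D L.grp := L.lvl (hLP.trans hPD)
  have : (L.grp.subgroupOf D).Normal := L.grp_normal.subgroupOf D
  have := hN.fin
  set π := QuotientGroup.mk' (L.grp.subgroupOf D) with hπ
  have hcard : ∀ R : Subgroup GQ, L.grp ≤ R → R ≤ D →
      Nat.card ((R.subgroupOf D).map π) = L.grp.relIndex R := fun R h1 h2 => by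
    rw [← Subgroup.relIndex_ker, hπ, QuotientGroup.ker_mk', Subgroup.relIndex_subgroupOf h2]
  have hG : IsPGroup p ((P.subgroupOf D).map π) := IsPGroup.of_card (n := a) (by rw [hcard P hLP hPD, ha])
  obtain ⟨S, hS⟩ := hG.exists_le_sylow
  set P₀ := ((S : Subgroup (D ⧸ L.grp.subgroupOf D)).comap π).map D.subtype with hP₀
  have hPle : P ≤ P₀ := fun x hx => ⟨⟨x, hPD hx⟩, hS ⟨⟨x, hPD hx⟩, hx, rfl⟩, rfl⟩
  have hle : P₀ ≤ D := Subgroup.map_subtype_le _
  have e : P₀.subgroupOf D = (S : Subgroup _).comap π :=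
    Subgroup.comap_map_eq_self_of_injective D.subtype_injective _
  refine ⟨P₀, hPle, hle, ?_, ?_⟩
  · obtain ⟨s, hs⟩ := S.2.exists_card_eq
    refine ⟨s, ?_⟩
    rw [← hcard P₀ (hLP.trans hPle) hle, e,
      Subgroup.map_comap_eq_self_of_surjective (QuotientGroup.mk'_surjective _)]
    exact hs
  · rw [Subgroup.relIndex, e, Subgroup.index_comap_of_surjective _ (QuotientGroup.mk'_surjective _)]
    exact S.not_dvd_index

variable {Γ M : Type*} [Group Γ] [AddCommGroup M] [DistribMulAction Γ M]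

lemma isB1_of_nsmul (hp : ∀ m : M, p • m = 0) {H : Subgroup Γ} {f : Γ → M} {n : ℕ} (hn : ¬ p ∣ n)
    (h : IsB1 H (fun g => n • f g)) : IsB1 H f := by
  obtain ⟨a, ha⟩ := h
  obtain ⟨c, b, hcb⟩ : IsCoprime (n : ℤ) p :=
    ((Nat.prime_iff_prime_int.1 (Fact.out : p.Prime)).coprime_iff_not_dvd.2
      (Int.natCast_dvd_natCast.not.2 hn)).symm
  refine ⟨c • a, fun g hg => ?_⟩
  have e : f g = c • n • f g := by
    conv_lhs => rw [← one_zsmul (f g), ← hcb]
    rw [add_smul, mul_smul, mul_smul, natCast_zsmul (f g) p, hp, smul_zero, add_zero, natCast_zsmul]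
  rw [e, show n • f g = dd0 a g from ha g hg, dd0, dd0, smul_comm g, smul_sub]

/-- A cocycle that splits on a subgroup of index prime to `p` splits. -/
lemma isB1_of_sylow (hp : ∀ m : M, p • m = 0) {H P N : Subgroup Γ} (hP : P ≤ H)
    (hfin : Finite (↥H ⧸ P.subgroupOf H)) (hidx : ¬ p ∣ P.relIndex H) {f : Γ → M}
    (hf : IsZ1 H N f) (h : IsB1 P f) : IsB1 H f :=
  isB1_of_nsmul hp hidx (isB1_nsmul hP hfin hf h)

end FLTAgent.Global
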