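import Fermat.Agent.Global.Fund.ClassModule
import Fermat.Agent.Global.Fund.LocalNorms

/-!
The invariant of a `p`-torsion class in `H²(G_ℚ, C)`, relative to a fixed base class.
-/

set_option autoImplicit false
set_option linter.unusedSectionVars false
set_option synthInstance.maxHeartbeats 100000

noncomputable section

namespace FLTAgent.Global

variable (p : ℕ) [Fact p.Prime]

/-- Vanishing up to a multiple prime to `p`, at some level. -/
def ClZero {A : Type*} [AddCommGroup A] [DistribMulAction GQ A] (z : GQ → GQ → A) : Prop :=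
  ∃ Z : Level, ∃ m : ℕ, ¬ p ∣ m ∧ IsB2 (⊤ : Subgroup GQ) Z.grp (fun g h => m • z g h)

/-- A `p`-torsion class of some level containing `μ_p`. -/
def ClTor (z : GQ → GQ → Cl) : Prop :=
  (∃ Z : Level, FixesMu p Z.grp ∧ IsZ2 (⊤ : Subgroup GQ) Z.grp z) ∧ ClZero p (fun g h => p • z g h)

variable {p}

section alg

variable {A : Type*} [AddCommGroup A]

lemma nsmul_zsmul_comm (m : ℕ) (n : ℤ) (x : A) : m • n • x = n • m • x := smul_comm m n x

lemma nsmul_mul_add (m m' : ℕ) (x y : A) : m' • m • x + m • m' • y = (m * m') • (x + y) := by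
  rw [nsmul_add, smul_comm m' m x, mul_smul, mul_smul]

lemma sign_nsmul_zsmul (n : ℤ) (m : ℕ) (x : A) : n.sign • m • n • x = (n.natAbs * m) • x := by
  rw [smul_comm n.sign m (n • x), smul_smul, Int.sign_mul_self_eq_natAbs, natCast_zsmul, mul_comm, mul_smul]

end alg

lemma IsZ2.congr' {Γ A : Type*} [Group Γ] [AddCommGroup A] [DistribMulAction Γ A] {H N : Subgroup Γ}
    {c c' : Γ → Γ → A} (h : IsZ2 H N c) (e : ∀ g k, c g k = c' g k) : IsZ2 H N c' := by
  obtain rfl : c = c' := funext fun g => funext (e g)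
  exact h

lemma Level.sup_left (L L' : Level) : (L.sup L').grp ≤ L.grp := (L.sup_grp_le L').trans inf_le_left

lemma Level.sup_right (L L' : Level) : (L.sup L').grp ≤ L'.grp := (L.sup_grp_le L').trans inf_le_right

lemma not_dvd_mul_of_not_dvd {m n : ℕ} (hm : ¬ p ∣ m) (hn : ¬ p ∣ n) : ¬ p ∣ m * n := fun h =>
  ((Fact.out : p.Prime).dvd_mul.1 h).elim hm hn

lemma not_dvd_one' : ¬ p ∣ 1 := (Fact.out : p.Prime).not_dvd_one

section generic

variable {A : Type*} [AddCommGroup A] [DistribMulAction GQ A] {z z' : GQ → GQ → A}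

lemma ClZero.of_isB2 {Z : Level} (h : IsB2 (⊤ : Subgroup GQ) Z.grp z) : ClZero p z :=
  ⟨Z, 1, not_dvd_one', h.congr fun g _ k _ => (one_nsmul (z g k)).symm⟩

lemma ClZero.congr (h : ClZero p z) (e : ∀ g k, z g k = z' g k) : ClZero p z' := by
  obtain rfl : z = z' := funext fun g => funext (e g)
  exact h

lemma ClZero.add (h : ClZero p z) (h' : ClZero p z') : ClZero p (z + z') := by
  obtain ⟨Z, m, hm, hb⟩ := h
  obtain ⟨Z', m', hm', hb'⟩ := h'
  refine ⟨Z.sup Z', m * m', not_dvd_mul_of_not_dvd hm hm', ?_⟩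
  exact (((hb.mono_lvl (Z.sup_left Z')).nsmul m').add ((hb'.mono_lvl (Z.sup_right Z')).nsmul m)).congr
    fun g _ k _ => nsmul_mul_add m m' (z g k) (z' g k)

lemma ClZero.zsmul (h : ClZero p z) (n : ℤ) : ClZero p (fun g k => n • z g k) := by
  obtain ⟨Z, m, hm, hb⟩ := h
  exact ⟨Z, m, hm, (hb.zsmul n).congr fun g _ k _ => (nsmul_zsmul_comm m n (z g k)).symm⟩

lemma ClZero.of_zsmul {n : ℤ} (hn : ¬ (p : ℤ) ∣ n)
    (h : ClZero p (fun g k => n • z g k)) : ClZero p z := by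
  obtain ⟨Z, m, hm, hb⟩ := h
  exact ⟨Z, n.natAbs * m, not_dvd_mul_of_not_dvd (fun hd => hn (Int.natCast_dvd.2 hd)) hm,
    (hb.zsmul n.sign).congr fun g _ k _ => sign_nsmul_zsmul n m (z g k)⟩

/-- Inflation is injective up to multiples prime to `p` when `H¹` of the bottom layer is. -/
theorem exists_nsmul_isB2_inflation {Γ B : Type*} [Group Γ] [AddCommGroup B] [DistribMulAction Γ B]
    {H N' N : Subgroup Γ} (hN' : Lvl H N')
    (h1 : ∀ f : Γ → B, IsZ1 N' N f → ∃ n : ℕ, ¬ p ∣ n ∧ IsB1 N' (fun g => n • f g))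
    {c : Γ → Γ → B} (hc : IsZ2 H N' c) (hb : IsB2 H N c) :
    ∃ n : ℕ, ¬ p ∣ n ∧ IsB2 H N' (fun g h => n • c g h) := by
  obtain ⟨b, hbl, hbc⟩ := hb
  set z := c 1 1 with hz
  have hz1 : ∀ s ∈ N', ∀ t ∈ N', c s t = z := fun s hs t ht => by
    simpa using hc.1 1 H.one_mem 1 H.one_mem s hs t ht
  have hzs : ∀ s ∈ N', s • z = z := fun s hs => hc.smul_eq hN' H.one_mem H.one_mem hs
  have hf : IsZ1 N' N (fun g => b g - z) := by
    refine ⟨fun g hg s hs => by simp [hbl g (hN'.le hg) s hs], fun g hg h hh => ?_⟩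
    have e := hbc g (hN'.le hg) h (hN'.le hh)
    rw [hz1 g hg h hh, dd1] at e
    dsimp only
    rw [smul_sub, hzs g hg, ← sub_eq_zero]
    calc b (g * h) - z - (g • b h - z + (b g - z))
        = z - (g • b h - b (g * h) + b g) := by abel
      _ = 0 := sub_eq_zero.2 e
  obtain ⟨n, hn, a, ha⟩ := h1 _ hf
  refine ⟨n, hn, fun g => n • b g - dd0 a g, fun g hg s hs => ?_, fun g hg h hh => ?_⟩
  · have e := hbc g hg s (hN'.le hs)
    have e' : c g s = g • z := by
      rw [hz, ← hc.right_one hg]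
      simpa using hc.1 g hg 1 H.one_mem 1 N'.one_mem s hs
    rw [dd1, e'] at e
    have es : n • b s = n • z + (s • a - a) := by
      have := ha s hs
      dsimp only [dd0] at this
      rw [← this, nsmul_sub]
      exact (add_sub_cancel _ _).symm
    have e3 : n • g • z = g • (n • b s) - n • b (g * s) + n • b g := by
      rw [smul_comm g n, ← nsmul_sub, ← nsmul_add, ← e]
    rw [es, smul_add, smul_sub, smul_comm g n] at e3
    simp only [dd0, mul_smul]
    rw [← sub_eq_zero] at e3 ⊢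
    rw [← e3]
    abel
  · rw [show (fun g => n • b g - dd0 a g) = (fun g => n • b g) - dd0 a from rfl, dd1_sub, dd1_dd0,
      sub_zero]
    dsimp only
    rw [hbc g hg h hh]
    simp only [dd1, nsmul_add, nsmul_sub, smul_comm g n]

/-- Zero classes are zero at their own level. -/
def ZeroAtLevel (p : ℕ) (A : Type*) [AddCommGroup A] [DistribMulAction GQ A] (L : Level) : Prop :=
  ∀ z : GQ → GQ → A, ClZero p z → IsZ2 (⊤ : Subgroup GQ) L.grp z →
    ∃ m : ℕ, ¬ p ∣ m ∧ IsB2 (⊤ : Subgroup GQ) L.grp (fun g k => m • z g k)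

end generic

section base

/-- A level containing `μ_p`. -/
lemma exists_mu_level (p : ℕ) [Fact p.Prime] : ∃ L : Level, FixesMu p L.grp := by
  obtain ⟨ζ, hζ⟩ := exists_primitiveRoot p
  obtain ⟨L, hL⟩ := exists_level_mem ζ
  refine ⟨L, fun s hs z hz => ?_⟩
  obtain ⟨i, -, rfl⟩ := hζ.eq_pow_of_pow_eq_one hz
  rw [map_pow, (IntermediateField.mem_fixingSubgroup_iff _ _).1 hs ζ hL]

lemma dvd_index_of_le {H H' : Subgroup GQ} (h : H' ≤ H) (hd : p ∣ H.index) : p ∣ H'.index :=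
  hd.trans (Subgroup.index_dvd_of_le h)

/-- Data of a level at which the duality takes place. -/
structure GoodLevel (p : ℕ) [Fact p.Prime] (L : Level) : Prop where
  mu : FixesMu p L.grp
  dvd : p ∣ L.grp.index

lemma GoodLevel.mono {L L' : Level} (h : GoodLevel p L) (hL : L'.grp ≤ L.grp) : GoodLevel p L' :=
  ⟨h.mu.mono hL, dvd_index_of_le hL h.dvd⟩

lemma exists_goodLevel (hp2 : p ≠ 2) : ∃ L : Level, GoodLevel p L := by
  obtain ⟨L, hL⟩ := exists_mu_level p
  obtain ⟨ℓ, -, -, b, hb, hord⟩ := exists_prime_order (p := p) Fact.out hp2 Nat.prime_two 1 ∅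
  have : Fact (ℓ : ℕ).Prime := ⟨ℓ.2⟩
  refine ⟨L.sup (cycLevel ℓ), hL.mono (L.sup_left _), dvd_index_of_le (L.sup_right _) ?_⟩
  rw [grp_cycLevel, Subgroup.index_ker, MonoidHom.range_eq_top.2 cyc_surjective, Subgroup.card_top,
    Nat.card_eq_fintype_card, ZMod.card_units]
  have hne : ((2 : ℕ) : ZMod (ℓ : ℕ)) ≠ 0 := fun h => by
    rw [h, orderOf_zero] at hord
    exact pow_ne_zero _ (Fact.out : p.Prime).ne_zero hord.symm
  exact (dvd_pow_self p (by omega)).trans (hord ▸ ZMod.orderOf_dvd_card_sub_one hne)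

variable {L : Level}

lemma exists_sylow_pred (hg : GoodLevel p L) :
    ∃ P : Subgroup GQ, L.grp ≤ P ∧ ∃ s : ℕ, L.grp.relIndex P = p ^ (s + 1) ∧ ¬ p ∣ P.index ∧
      (L.grp.index / p : ℕ) = P.index * p ^ s := by
  obtain ⟨P, hLP, ⟨s, hs⟩, hP⟩ := exists_sylow_layer (p := p) L (P := L.grp) le_rfl (a := 0)
    (by rw [pow_zero]; exact Subgroup.relIndex_self _)
  have hmul := Subgroup.relIndex_mul_index hLP
  have hd := hg.dvd
  rcases s with - | s
  · rw [← hmul, hs, pow_zero, one_mul] at hd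
    exact absurd hd hP
  refine ⟨P, hLP, s, hs, hP, ?_⟩
  rw [← hmul, hs, pow_succ, mul_assoc, mul_comm p, ← mul_assoc, Nat.mul_div_cancel _ (Fact.out : p.Prime).pos,
    mul_comm]

section generators

variable {A : Type*} [AddCommGroup A] [DistribMulAction GQ A] {u : GQ → GQ → A}

theorem clZero_p_smul_u (hg : GoodLevel p L) (hu : IsZ2 (⊤ : Subgroup GQ) L.grp u) :
    ClZero p (fun g h => p • (((L.grp.index / p : ℕ) : ℤ) • u g h)) := by
  refine ClZero.of_isB2 (Z := L) ?_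
  refine (isB2_nsmul (L.lvl le_top) le_top le_rfl (L.lvl le_top).fin hu (hu.isB2_bot (L.lvl le_top))).congr
    fun g _ k _ => ?_
  rw [natCast_zsmul, ← mul_smul, Nat.mul_div_cancel' hg.dvd, Subgroup.relIndex_top_right]

theorem not_clZero_smul_u (hI : ZeroAtLevel p A L) (hg : GoodLevel p L)
    (hu : IsZ2 (⊤ : Subgroup GQ) L.grp u)
    (hC : ∀ P : Subgroup GQ, L.grp ≤ P → ∀ a : ℕ, L.grp.relIndex P = p ^ a → ClassModule p P L.grp u) :
    ¬ ClZero p (fun g h => ((L.grp.index / p : ℕ) : ℤ) • u g h) := by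
  intro h
  obtain ⟨m, hm, hb⟩ := hI _ h (hu.zsmul _)
  obtain ⟨P, hLP, s, hs, hP, he⟩ := exists_sylow_pred hg
  have hd := (hC P hLP _ hs).order ((m * (L.grp.index / p) : ℕ) : ℤ) ((hb.mono_top le_top).congr fun g _ k _ => by
    rw [natCast_zsmul, natCast_zsmul, mul_smul])
  rw [hs, he, Int.natCast_dvd_natCast, ← mul_assoc, pow_succ, mul_comm (m * P.index)] at hd
  exact not_dvd_mul_of_not_dvd hm hP
    ((Nat.mul_dvd_mul_iff_left (pow_pos (Fact.out : p.Prime).pos s)).1 hd)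

/-- Every `p`-torsion class is a multiple of `(n/p) u`. -/
theorem exists_eq_smul_u (hI : ZeroAtLevel p A L) (hg : GoodLevel p L)
    (hu : IsZ2 (⊤ : Subgroup GQ) L.grp u)
    (hC : ∀ P : Subgroup GQ, L.grp ≤ P → ∀ a : ℕ, L.grp.relIndex P = p ^ a → ClassModule p P L.grp u)
    {z : GQ → GQ → A} (hz : IsZ2 (⊤ : Subgroup GQ) L.grp z) (hpz : ClZero p (fun g h => p • z g h)) :
    ∃ j : ℤ, ClZero p (fun g h => z g h - j • ((L.grp.index / p : ℕ) : ℤ) • u g h) := by
  have hp : p.Prime := Fact.out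
  obtain ⟨P, hLP, s, hs, hP, he⟩ := exists_sylow_pred hg
  have hCP := hC P hLP _ hs
  obtain ⟨k, hk⟩ := hCP.exists_zsmul_u (hz.restrict le_top)
  obtain ⟨m, hm, hb⟩ := hI _ hpz ((hz.zsmul p).congr' fun g h => natCast_zsmul (z g h) p)
  have hd := hCP.order ((m * p : ℕ) * k) (((hb.mono_top le_top).sub (hk.zsmul (m * p : ℕ))).congr
    fun g _ h _ => by
      show m • p • z g h - ((m * p : ℕ) : ℤ) • (z g h - k • u g h) = _
      rw [zsmul_sub, natCast_zsmul (z g h), mul_smul m p (z g h), sub_sub_cancel, smul_smul])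
  obtain ⟨k', rfl⟩ : (p : ℤ) ^ s ∣ k := by
    have h1 : (p : ℤ) * (p : ℤ) ^ s ∣ (p : ℤ) * ((m : ℤ) * k) := by
      rw [hs] at hd; push_cast at hd
      rwa [pow_succ', mul_comm (m : ℤ) p, mul_assoc] at hd
    exact (((Nat.prime_iff_prime_int.1 hp).coprime_iff_not_dvd.2
      (Int.natCast_dvd_natCast.not.2 hm)).pow_left).dvd_of_dvd_mul_left
      ((mul_dvd_mul_iff_left (Int.natCast_ne_zero.2 hp.ne_zero)).1 h1)
  have hcop : IsCoprime (P.index : ℤ) (p : ℤ) :=
    ((Nat.prime_iff_prime_int.1 hp).coprime_iff_not_dvd.2 (Int.natCast_dvd_natCast.not.2 hP)).symm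
  obtain ⟨a, b, hab⟩ := hcop
  refine ⟨k' * a, L, P.index, hP, ?_⟩
  have hzero : IsB2 P L.grp (fun g h => ((p ^ (s + 1) : ℕ) : ℤ) • u g h) := by
    refine (isB2_nsmul hCP.lvl hLP le_rfl hCP.lvl.fin hCP.z2 (hCP.z2.isB2_bot hCP.lvl)).congr
      fun g _ h _ => ?_
    rw [hs, natCast_zsmul]
  have hsplit : IsB2 P L.grp (fun g h => z g h - (k' * a) • ((L.grp.index / p : ℕ) : ℤ) • u g h) := by
    refine (hk.add (hzero.zsmul (k' * b))).congr fun g _ h _ => ?_
    show z g h - ((p : ℤ) ^ s * k') • u g h + (k' * b) • ((p ^ (s + 1) : ℕ) : ℤ) • u g h = _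
    rw [smul_smul, smul_smul, sub_add, ← sub_smul]
    congr 2
    rw [he]; push_cast
    linear_combination (-(p : ℤ) ^ s * k') * hab
  refine (isB2_nsmul (L.lvl le_top) le_top hLP ((L.lvl le_top).fin_quot le_top hLP)
    ((hz.sub ((hu.zsmul _).zsmul _))) hsplit).congr fun g _ h _ => ?_
  rw [Subgroup.relIndex_top_right]
  rfl

lemma clZero_base_unit {x : GQ → GQ → A} {i : ℤ} (hpw : ClZero p (fun g h => p • u g h))
    (hi : ClZero p (fun g h => x g h - ((p : ℤ) * i) • u g h)) : ClZero p x := by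
  refine (hi.add (hpw.zsmul i)).congr fun g k => ?_
  show x g k - ((p : ℤ) * i) • u g k + i • p • u g k = x g k
  rw [mul_comm, mul_smul, natCast_zsmul, sub_add_cancel]

lemma clZero_change {x z : GQ → GQ → A} {i j a b : ℤ} (hab : a * i + b * p = 1)
    (hpw : ClZero p (fun g h => p • u g h)) (hi : ClZero p (fun g h => x g h - i • u g h))
    (hj : ClZero p (fun g h => z g h - j • u g h)) :
    ClZero p (fun g h => z g h - (j * a) • x g h) := by
  refine ((hj.add (hi.zsmul (-(j * a)))).add (hpw.zsmul (j * b))).congr fun g k => ?_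
  show z g k - j • u g k + (-(j * a)) • (x g k - i • u g k) + (j * b) • p • u g k
    = z g k - (j * a) • x g k
  have e : j • u g k = (j * a) • i • u g k + (j * b) • (p : ℤ) • u g k := by
    rw [smul_smul, smul_smul, ← add_smul]
    congr 1
    linear_combination -j * hab
  rw [e, natCast_zsmul, zsmul_sub, neg_smul, neg_smul]
  abel

end generators

section comb

variable {A : Type*} [AddCommGroup A] [DistribMulAction GQ A] {z z' x : GQ → GQ → A} {i j : ℤ}

lemma clZero_diff (h : ClZero p (fun g k => z g k - i • x g k)) (h' : ClZero p (fun g k => z g k - j • x g k)) :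
    ClZero p (fun g k => (j - i) • x g k) := by
  refine (h.add (h'.zsmul (-1))).congr fun g k => ?_
  show z g k - i • x g k + (-1 : ℤ) • (z g k - j • x g k) = (j - i) • x g k
  rw [neg_one_zsmul, sub_smul]
  abel

lemma clZero_sum (h : ClZero p (fun g k => z g k - i • x g k)) (h' : ClZero p (fun g k => z' g k - j • x g k)) :
    ClZero p (fun g k => (z + z') g k - (i + j) • x g k) := by
  refine (h.add h').congr fun g k => ?_
  show z g k - i • x g k + (z' g k - j • x g k) = z g k + z' g k - (i + j) • x g k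
  rw [add_smul]
  abel

lemma clZero_trans (h : ClZero p (fun g k => z g k - z' g k)) (h' : ClZero p (fun g k => z' g k - j • x g k)) :
    ClZero p (fun g k => z g k - j • x g k) := by
  refine (h.add h').congr fun g k => ?_
  show z g k - z' g k + (z' g k - j • x g k) = z g k - j • x g k
  abel

lemma clZero_scale (h : ClZero p (fun g k => z g k - j • x g k)) (n : ℤ) :
    ClZero p (fun g k => n • z g k - (n * j) • x g k) :=
  (h.zsmul n).congr fun g k => by rw [zsmul_sub, smul_smul]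

lemma clZero_sub_zero (h : ClZero p z) : ClZero p (fun g k => z g k - (0 : ℤ) • x g k) :=
  h.congr fun g k => by rw [zero_smul, sub_zero]

end comb

variable {u : GQ → GQ → Cl}

lemma zeroAtLevel_cl (hp2 : p ≠ 2) {L : Level} (hμ : FixesMu p L.grp) : ZeroAtLevel p Cl L := by
  rintro z ⟨Z', m, hm, hb⟩ hz
  have hle := L.sup_left Z'
  obtain ⟨n, hn, hb'⟩ := exists_nsmul_isB2_inflation (L.lvl le_top)
    (fun f hf => exists_nsmul_isB1_cl hp2 (L.sup Z')
      (((L.sup Z').lvl (H := (⊤ : Subgroup GQ)) le_top).sub_left le_top hle) le_rfl (hμ.mono hle) hf)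
    ((hz.zsmul m).congr' fun g k => natCast_zsmul (z g k) m) (hb.mono_lvl (L.sup_right Z'))
  exact ⟨n * m, not_dvd_mul_of_not_dvd hn hm, hb'.congr fun g _ k _ => (mul_nsmul' (z g k) n m).symm⟩

theorem clTor_smul_u (hg : GoodLevel p L) (hu : IsZ2 (⊤ : Subgroup GQ) L.grp u) :
    ClTor p (fun g h => ((L.grp.index / p : ℕ) : ℤ) • u g h) :=
  ⟨⟨L, hg.mu, hu.zsmul _⟩, clZero_p_smul_u hg hu⟩

end base

/-- The base class exists. -/
theorem exists_clBase : ∃ zb : GQ → GQ → Cl, p ≠ 2 → ClTor p zb ∧ ¬ ClZero p zb := by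
  by_cases hp2 : p ≠ 2
  · obtain ⟨L, hg⟩ := exists_goodLevel hp2
    obtain ⟨u, hu, hC⟩ := exists_classModule hp2 L hg.mu
    exact ⟨_, fun _ => ⟨clTor_smul_u hg hu, not_clZero_smul_u (zeroAtLevel_cl hp2 hg.mu) hg hu hC⟩⟩
  · exact ⟨0, fun h => absurd h hp2⟩

variable (p) in
/-- The base class. -/
def clBase : GQ → GQ → Cl := (exists_clBase (p := p)).choose

variable (p) in
open scoped Classical in
/-- The invariant. -/
def clInv (z : GQ → GQ → Cl) : ZMod p :=
  if h : ∃ j : ℤ, ClZero p (fun g k => z g k - j • clBase p g k) then (h.choose : ZMod p) else 0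

lemma ClTor.exists_eq_base (hp2 : p ≠ 2) {z : GQ → GQ → Cl} (hz : ClTor p z) :
    ∃ j : ℤ, ClZero p (fun g k => z g k - j • clBase p g k) := by
  obtain ⟨⟨⟨Z, hμ, hzZ⟩, hpz⟩, hne⟩ := (exists_clBase (p := p)).choose_spec hp2
  obtain ⟨⟨Z', hμ', hz'⟩, hpz'⟩ := hz
  obtain ⟨G, hG⟩ := exists_goodLevel (p := p) hp2
  set L := (G.sup Z).sup Z' with hL
  have h1 : L.grp ≤ G.grp := ((G.sup Z).sup_left Z').trans (G.sup_left Z)
  have h2 : L.grp ≤ Z.grp := ((G.sup Z).sup_left Z').trans (G.sup_right Z)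
  have h3 : L.grp ≤ Z'.grp := (G.sup Z).sup_right Z'
  have hg := hG.mono h1
  obtain ⟨u, hu, hC⟩ := exists_classModule hp2 L hg.mu
  have hI := zeroAtLevel_cl hp2 hg.mu
  obtain ⟨i, hi⟩ := exists_eq_smul_u hI hg hu hC (hzZ.mono_lvl h2) hpz
  obtain ⟨j, hj⟩ := exists_eq_smul_u hI hg hu hC (hz'.mono_lvl h3) hpz'
  have hi' : ¬ (p : ℤ) ∣ i := by
    rintro ⟨i', rfl⟩
    exact hne (clZero_base_unit (u := fun g h => ((L.grp.index / p : ℕ) : ℤ) • u g h)
      (clTor_smul_u hg hu).2 hi)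
  obtain ⟨a, b, hab⟩ := ((Nat.prime_iff_prime_int.1 (Fact.out : p.Prime)).coprime_iff_not_dvd.2 hi').symm
  exact ⟨j * a, clZero_change (u := fun g h => ((L.grp.index / p : ℕ) : ℤ) • u g h) hab
    (clTor_smul_u hg hu).2 hi hj⟩

lemma clInv_eq (hp2 : p ≠ 2) {z : GQ → GQ → Cl} {j : ℤ}
    (h : ClZero p (fun g k => z g k - j • clBase p g k)) : clInv p z = (j : ZMod p) := by
  obtain ⟨-, hne⟩ := (exists_clBase (p := p)).choose_spec hp2
  have hex : ∃ j : ℤ, ClZero p (fun g k => z g k - j • clBase p g k) := ⟨j, h⟩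
  rw [clInv, dif_pos hex, ← sub_eq_zero, ← Int.cast_sub, ZMod.intCast_zmod_eq_zero_iff_dvd]
  exact by_contra fun hnd => hne (ClZero.of_zsmul hnd (clZero_diff h hex.choose_spec))

lemma clInv_of_clZero (hp2 : p ≠ 2) {z : GQ → GQ → Cl} (h : ClZero p z) : clInv p z = 0 := by
  rw [clInv_eq hp2 (clZero_sub_zero h), Int.cast_zero]

lemma clInv_add (hp2 : p ≠ 2) {z z' : GQ → GQ → Cl} (hz : ClTor p z) (hz' : ClTor p z') :
    clInv p (z + z') = clInv p z + clInv p z' := by
  obtain ⟨j, hj⟩ := hz.exists_eq_base hp2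
  obtain ⟨j', hj'⟩ := hz'.exists_eq_base hp2
  rw [clInv_eq hp2 hj, clInv_eq hp2 hj', ← Int.cast_add, clInv_eq hp2 (clZero_sum hj hj')]

lemma clInv_congr (hp2 : p ≠ 2) {z z' : GQ → GQ → Cl} (hz' : ClTor p z')
    (h : ClZero p (fun g k => z g k - z' g k)) : clInv p z = clInv p z' := by
  obtain ⟨j', hj'⟩ := hz'.exists_eq_base hp2
  rw [clInv_eq hp2 hj', clInv_eq hp2 (clZero_trans h hj')]

lemma clInv_zsmul (hp2 : p ≠ 2) {z : GQ → GQ → Cl} (hz : ClTor p z) (n : ℤ) :
    clInv p (fun g k => n • z g k) = (n : ZMod p) * clInv p z := by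
  obtain ⟨j, hj⟩ := hz.exists_eq_base hp2
  rw [clInv_eq hp2 hj, ← Int.cast_mul, clInv_eq hp2 (clZero_scale hj n)]

/-- The invariant of `(n/p) u` is a unit. -/
theorem clInv_smul_u_ne_zero (hp2 : p ≠ 2) {L : Level} {u : GQ → GQ → Cl} (hg : GoodLevel p L)
    (hu : IsZ2 (⊤ : Subgroup GQ) L.grp u)
    (hC : ∀ P : Subgroup GQ, L.grp ≤ P → ∀ a : ℕ, L.grp.relIndex P = p ^ a → ClassModule p P L.grp u) :
    clInv p (fun g h => ((L.grp.index / p : ℕ) : ℤ) • u g h) ≠ 0 := by
  obtain ⟨j, hj⟩ := (clTor_smul_u hg hu).exists_eq_base hp2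
  rw [clInv_eq hp2 hj, Ne, ZMod.intCast_zmod_eq_zero_iff_dvd]
  rintro ⟨j', rfl⟩
  obtain ⟨⟨-, hpb⟩, -⟩ := (exists_clBase (p := p)).choose_spec hp2
  exact not_clZero_smul_u (zeroAtLevel_cl hp2 hg.mu) hg hu hC (clZero_base_unit (u := clBase p) hpb hj)

end FLTAgent.Global
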