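import Fermat.Agent.Global.Duality.Orth
import Fermat.Agent.Global.Duality.Levels
import Fermat.Agent.Global.Ext.CoresMore
import Fermat.Agent.Global.Ext.DecompOn
import Fermat.Agent.Global.Ext.Form
import Fermat.Agent.Global.CFT.NormGroup

/-!
Norm extensions, and caps of local cycles, come from unit ideles outside `S`.
-/

set_option autoImplicit false
set_option linter.unusedSectionVars false
set_option linter.unusedVariables false
set_option synthInstance.maxHeartbeats 100000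

noncomputable section

namespace FLTAgent.Global

variable {p : ℕ} [Fact p.Prime] {S : Finset Nat.Primes} {X : Type*} [AddCommGroup X] [DistribMulAction GQ X]

/-- The map from one component to classes. -/
def singleCl (q : Nat.Primes) : Semi q →+ Cl := toCl.comp (single q)

lemma singleCl_smul (q : Nat.Primes) (g : GQ) (x : Semi q) : singleCl q (g • x) = g • singleCl q x :=
  (smul_mem_toCl_single g x).symm

lemma Pre.map_singleCl (q : Nat.Primes) (e : Pre GQ X (Semi q)) :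
    Pre.map toCl (Pre.map (single q) e) = Pre.map (B := Cl) (singleCl q) e := rfl

/-- An extension supported at one component is in `InU` if it is a unit one, or `q ∈ S`. -/
theorem inU_single {q : Nat.Primes} {L : Level} {e : Pre GQ X (Semi q)}
    (he : IsExt (⊤ : Subgroup GQ) L.grp e)
    (h : q ∈ S ∨ ((∀ x, e.1 x ∈ semiUnit q) ∧ ∀ g, e.2 g = 0)) :
    InU S (Pre.map (B := Cl) (singleCl q) e) := by
  refine ⟨L, Pre.map (single q) e, he.map (single_smul q), fun r hr => ⟨fun x => ?_, fun g m => ?_⟩, ?_⟩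
  · show comp r (single q (e.1 x)) ∈ semiUnit r
    rcases eq_or_ne r q with rfl | hne
    · rw [comp_single]
      exact (h.resolve_left hr).1 x
    · rw [comp_single_ne hne]
      exact zero_mem _
  · show comp r (single q (e.2 g m)) = 0
    rcases eq_or_ne r q with rfl | hne
    · rw [comp_single, (h.resolve_left hr).2 g]
      rfl
    · rw [comp_single_ne hne]
  · rw [Pre.map_singleCl]
    exact ExtRel.refl _ _

/-- The data of the norm group of `exists_norm_group`. -/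
structure NormData (p : ℕ) (S : Finset Nat.Primes) (X : Type*) [AddCommGroup X] [DistribMulAction GQ X]
    (K L₀ : Level) : Prop where
  le : L₀.grp ≤ K.grp
  triv : ∀ s ∈ K.grp, ∀ x : X, s • x = x
  norms : ∀ c ∈ fixSub (A := Cl) L₀.grp, ∃ x ∈ fixSub (A := Idele) K.grp, (∀ q ∉ S, comp q x ∈ semiUnit q) ∧
    ∃ c' ∈ fixSub (A := Cl) K.grp, normTo K.grp L₀.grp c = toCl x + p • c'

/-- The unit ideles outside `S` fixed by a subgroup. -/
def fixUnits (S : Finset Nat.Primes) (H : Subgroup GQ) : AddSubgroup Idele :=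
  sIdele S ⊓ fixSub H

section generic

variable {A : Type*} [AddCommGroup A] [DistribMulAction GQ A]

lemma normTo_two_steps {L : Level} {H P : Subgroup GQ} (hP : P ≤ H) (hLP : L.grp ≤ P) {a : A}
    (ha : ∀ s ∈ L.grp, s • a = a) : normTo H P (normTo P L.grp a) = normTo H L.grp a :=
  normTo_trans hP hLP (L.lvl (hLP.trans hP)).fin ha

lemma normTo_fn_apply {L : Level} {H : Subgroup GQ} (hH : L.grp ≤ H)
    (hX : ∀ s ∈ H, ∀ x : X, s • x = x) (a : Fn (X × X) A) (x : X × X) :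
    (normTo H L.grp a) x = normTo H L.grp (a x) := by
  rw [normTo, eval_csum (L.lvl hH)]
  exact csum_congr H L.grp fun t ht => by
    rw [Fn.smul_apply, Prod.smul_def, hX _ (H.inv_mem ht), hX _ (H.inv_mem ht)]

lemma fn_fixed_iff {H : Subgroup GQ} (hX : ∀ s ∈ H, ∀ x : X, s • x = x) {Y : Type*} [MulAction GQ Y]
    (hY : ∀ s ∈ H, ∀ y : Y, s • y = y) (a : Fn Y A) :
    (∀ s ∈ H, s • a = a) ↔ ∀ y, a y ∈ fixSub (A := A) H := by
  refine ⟨fun h y s hs => ?_, fun h s hs => Fn.ext fun y => ?_⟩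
  · conv_rhs => rw [← h s hs]
    rw [Fn.smul_apply, hY _ (H.inv_mem hs)]
  · rw [Fn.smul_apply, hY _ (H.inv_mem hs), h y s hs]

lemma fn_fixed_prod {H : Subgroup GQ} (hX : ∀ s ∈ H, ∀ x : X, s • x = x) (a : Fn (X × X) A) :
    (∀ s ∈ H, s • a = a) ↔ ∀ y, a y ∈ fixSub (A := A) H :=
  fn_fixed_iff hX (fun s hs y => Prod.ext (hX s hs y.1) (hX s hs y.2)) a

lemma smul_csum_fixed {P : Subgroup GQ} {T : AddSubgroup A} (hT : ∀ (g : GQ), ∀ a ∈ T, g • a ∈ T) {L : Level}
    (hLP : L.grp ≤ P) {a : Fn (X × X) A} (ha : ∀ x, a x ∈ T) (x : X × X) :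
    (normTo (⊤ : Subgroup GQ) P a) x ∈ T := by
  have hf := (L.lvl (H := (⊤ : Subgroup GQ)) le_top).fin_quot le_top hLP
  have := Fintype.ofFinite (↥(⊤ : Subgroup GQ) ⧸ P.subgroupOf ⊤)
  rw [normTo, eval_csum_sum, csum_eq_sum]
  exact sum_mem fun c _ => by rw [Fn.smul_apply]; exact hT _ _ (ha _)

lemma exists_symForm_fix [Finite X] (hp : ∀ x : X, p • x = 0) {H : Subgroup GQ}
    (hX : ∀ s ∈ H, ∀ x : X, s • x = x) {B : Type*} [AddCommGroup B] (ψ : B →+ A) {R : AddSubgroup B}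
    (hR : R.map ψ ≤ fixSub (A := A) H) {a : Fn (X × X) A} (ha : a ∈ symCoc)
    (hval : ∀ z, ∃ y ∈ R, ∃ r ∈ fixSub (A := A) H, a z = ψ y + p • r) :
    ∃ φ : Fn X A, (∀ g ∈ H, g • φ = φ) ∧ ∃ γ : Fn (X × X) B, γ ∈ symCoc ∧ (∀ z, γ z ∈ R) ∧
      ∀ z, a z = del φ z + ψ (γ z) := by
  obtain ⟨φ, hφ, γ, hγ, hγR, e⟩ := exists_symForm (p := p) hp
    (W := R.map ψ ⊔ (fixSub (A := A) H).map (nsmulAddMonoidHom p)) (W' := fixSub (A := A) H) ψ (R := R)
    (fun c hc => by
      obtain ⟨_, ⟨y, hy, rfl⟩, _, ⟨r, hr, rfl⟩, rfl⟩ := AddSubgroup.mem_sup.1 hc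
      exact ⟨y, hy, r, hr, rfl⟩) ha fun z => by
      obtain ⟨y, hy, r, hr, e⟩ := hval z
      rw [e]
      exact AddSubgroup.mem_sup.2 ⟨ψ y, ⟨y, hy, rfl⟩, p • r, ⟨r, hr, rfl⟩, rfl⟩
  refine ⟨φ, (fn_fixed_iff hX hX φ).2 fun m => ?_, γ, hγ, hγR, e⟩
  exact sup_le (sup_le hR ((AddSubgroup.map_le_iff_le_comap).2 fun r hr =>
    AddSubgroup.nsmul_mem _ hr p)) le_rfl (hφ m)

/-- A fixed coboundary relation between norms. -/
lemma extRel_normExt_of_eq {L : Level} {a a' : Fn (X × X) A} {φ : Fn X A}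
    (hφ : ∀ g ∈ L.grp, g • φ = φ) (e : a = del φ + a') :
    ExtRel (⊤ : Subgroup GQ) (normExt (⊤ : Subgroup GQ) L.grp a') (normExt (⊤ : Subgroup GQ) L.grp a) := by
  have hl := L.lvl (H := (⊤ : Subgroup GQ)) le_top
  refine ExtRel.symm ⟨normTo (⊤ : Subgroup GQ) L.grp φ, ?_, fun g hg => ?_⟩
  · show normTo ⊤ L.grp a - normTo ⊤ L.grp a' = _
    simp only [normTo, map_csum _ _ hl.fin, ← smul_del]
    rw [← csum_sub hl]
    exact csum_congr _ _ fun g _ => by rw [e, smul_add, add_sub_cancel_right]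
  · show (0 : Fn X A) - 0 = dd0 _ g
    rw [dd0, smul_normTo_of_lvl hl hφ hg, sub_self, sub_self]

lemma normExt_two_steps {L : Level} {P : Subgroup GQ} (hLP : L.grp ≤ P) {a : Fn (X × X) A}
    (ha : ∀ s ∈ L.grp, s • a = a) :
    (normExt (⊤ : Subgroup GQ) P (normTo P L.grp a) : Pre GQ X A) = normExt (⊤ : Subgroup GQ) L.grp a :=
  Prod.ext (normTo_two_steps le_top hLP ha) rfl

end generic

/-- Norm extensions from a level below `L₀` are unit extensions. -/
theorem inU_normExt [Finite X] (hp : ∀ x : X, p • x = 0) {K L₀ L : Level} (hD : NormData p S X K L₀)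
    (hL : L.grp ≤ L₀.grp) {α : Fn (X × X) Cl} (hα : α ∈ symCoc) (hfix : ∀ s ∈ L.grp, s • α = α) :
    InU S (normExt (⊤ : Subgroup GQ) L.grp α) := by
  have hLK : L.grp ≤ K.grp := hL.trans hD.le
  have hXL : ∀ s ∈ L.grp, ∀ x : X, s • x = x := fun s hs => hD.triv s (hLK hs)
  set β : Fn (X × X) Cl := normTo K.grp L.grp α with hβ
  have hβs : β ∈ symCoc := (isExt_normExt (L.lvl hLK) hα hfix).sym
  have hR : (fixUnits S K.grp).map toCl ≤ fixSub (A := Cl) K.grp := by
    rintro _ ⟨x, ⟨-, hx⟩, rfl⟩ s hs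
    rw [smul_toCl, hx s hs]
  obtain ⟨φ, hφ, γ, hγ, hγR, e⟩ := exists_symForm_fix hp hD.triv toCl hR hβs fun z => by
    have h1 := (fn_fixed_prod (A := Cl) hXL α).1 hfix z
    obtain ⟨x, hx, hxu, c, hc, e⟩ := hD.norms (normTo L₀.grp L.grp (α z))
      fun s hs => smul_normTo_of_lvl (L.lvl hL) h1 hs
    refine ⟨x, ⟨hxu, hx⟩, c, hc, ?_⟩
    rw [← e, hβ, normTo_fn_apply hLK hD.triv α z]
    exact (normTo_two_steps hD.le hL h1).symm
  have hfK : ∀ s ∈ K.grp, s • γ = γ := (fn_fixed_prod hD.triv γ).2 fun z => (hγR z).2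
  have hlK := K.lvl (H := (⊤ : Subgroup GQ)) le_top
  refine ⟨K, normExt (⊤ : Subgroup GQ) K.grp γ, isExt_normExt hlK hγ hfK,
    fun q hq => ⟨fun x => ?_, fun g m => map_zero (comp q)⟩, ?_⟩
  · exact smul_csum_fixed (T := (semiUnit q).comap (comp q))
      (fun g a ha => by
        show comp q (g • a) ∈ semiUnit q
        rw [comp_smul]; exact smul_mem_semiUnit q ha g)
      le_rfl (fun z => (hγR z).1 q hq) x
  rw [Pre.map_normExt (fun g a => (smul_toCl g a).symm) hlK, ← normExt_two_steps hLK hfix]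
  exact extRel_normExt_of_eq hφ (Fn.ext e)

/-- The class `u` on a `p`-subgroup of a decomposition group comes from the fixed place. -/
theorem exists_local_class (hp2 : p ≠ 2) {L : Level} {q : Nat.Primes} (hμ : FixesMu p L.grp)
    {u : GQ → GQ → Cl}
    (hC : ∀ P : Subgroup GQ, L.grp ≤ P → ∀ a : ℕ, L.grp.relIndex P = p ^ a → ClassModule p P L.grp u)
    {P : Subgroup GQ} (hLP : L.grp ≤ P) (hPd : P ≤ dec q ⊔ L.grp) {a : ℕ}
    (ha : L.grp.relIndex P = p ^ a) :
    ∃ c : GQ → GQ → Semi q, IsZ2 P L.grp c ∧ (∀ g ∈ P, ∀ h ∈ P, atPlace L q 1 (c g h) = c g h) ∧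
      IsB2 P L.grp (fun g h => u g h - singleCl q (c g h)) := by
  obtain ⟨P', hPP', hP'D, ⟨s, hs⟩, hsyl⟩ := exists_sylow_in L hLP hPd ha
  obtain ⟨c, hc, hc1, hord⟩ := exists_local_fundamental hp2 L q hμ (hLP.trans hPP') hP'D hs hsyl
  have hC' := hC P' (hLP.trans hPP') s hs
  obtain ⟨j, hj⟩ := hC'.exists_sub_zsmul (isZ2_comp (A := Semi q) (B := Cl) (singleCl_smul q) hc) hs hord
  refine ⟨fun g h => j • c g h, (hc.zsmul j).restrict hPP',
    fun g hg h hh => by rw [map_zsmul, hc1 g (hPP' hg) h (hPP' hh)],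
    (hj.mono_top hPP').congr fun g _ h _ => ?_⟩
  rw [map_zsmul]

variable [Finite X]

/-- The cap with a local cycle, reduced to the component at the place. -/
theorem exists_push_rel {L : Level} (hX : ∀ s ∈ L.grp, ∀ x : X, s • x = x) {u : GQ → GQ → Cl}
    (hu : IsZ2 (⊤ : Subgroup GQ) L.grp u) {q : Nat.Primes} {P : Subgroup GQ} (hLP : L.grp ≤ P)
    {c : GQ → GQ → Semi q} (hc : IsZ2 P L.grp c)
    (hcu : IsB2 P L.grp (fun g h => u g h - singleCl q (c g h))) {v : GQ → X → ℤ}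
    (hv : IsCycle p P L.grp v) :
    ∃ α : Fn (X × X) Cl, α ∈ symCoc ∧ (∀ s ∈ L.grp, s • α = α) ∧
      ExtRel (⊤ : Subgroup GQ) (capExt p (⊤ : Subgroup GQ) L.grp u (pushW P v))
        (Pre.map (B := Cl) (singleCl q) (coresExt (⊤ : Subgroup GQ) P (capExt p P L.grp c v))
          + normExt (⊤ : Subgroup GQ) L.grp α) := by
  have hp : p ≠ 0 := (Fact.out : p.Prime).ne_zero
  have hlT := L.lvl (H := (⊤ : Subgroup GQ)) le_top
  have hlP := L.lvl hLP
  obtain ⟨α, hα, hαN, hrel⟩ := exists_capExt_congr_class (M := X) hlP hX (hu.restrict le_top)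
    (isZ2_comp (A := Semi q) (B := Cl) (singleCl_smul q) hc) hv hcu
  refine ⟨α, hα, hαN, (coresExt_capExt hlT le_top hLP hX hp hu hv).symm.trans
    ((ExtRel.cores hlT le_top hLP hrel).trans ((coresExt_add (hlT.fin_quot le_top hLP) _ _).trans
      (ExtRel.add ?_ (coresExt_normExt hlT le_top hLP hαN))))⟩
  exact coresExt_capExt_comp (A := Semi q) (B := Cl) (singleCl_smul q) (hlT.fin_quot le_top hLP) hlP c v

/-- A local cycle at a place in `S` gives a unit extension. -/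
theorem inU_push_dec (hp2 : p ≠ 2) (hp : ∀ x : X, p • x = 0) {K L₀ L : Level} (hD : NormData p S X K L₀)
    (hL : L.grp ≤ L₀.grp) (hμ : FixesMu p L.grp) {u : GQ → GQ → Cl}
    (hu : IsZ2 (⊤ : Subgroup GQ) L.grp u)
    (hC : ∀ P : Subgroup GQ, L.grp ≤ P → ∀ a : ℕ, L.grp.relIndex P = p ^ a → ClassModule p P L.grp u)
    {q : Nat.Primes} (hq : q ∈ S) {P : Subgroup GQ} (hLP : L.grp ≤ P) (hPd : P ≤ dec q ⊔ L.grp)
    {a : ℕ} (ha : L.grp.relIndex P = p ^ a) {v : GQ → X → ℤ} (hv : IsCycle p P L.grp v) :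
    InU S (capExt p (⊤ : Subgroup GQ) L.grp u (pushW P v)) := by
  have hX : ∀ s ∈ L.grp, ∀ x : X, s • x = x := fun s hs => hD.triv s (hD.le (hL hs))
  obtain ⟨c, hc, -, hcu⟩ := exists_local_class hp2 hμ hC hLP hPd ha
  obtain ⟨α, hα, hαN, hrel⟩ := exists_push_rel hX hu hLP hc hcu hv
  refine InU.congr ((inU_single (isExt_coresExt (L.lvl le_top) le_top hLP
    (isExt_capExt (L.lvl hLP) hX (Fact.out : p.Prime).ne_zero hc hv)) (Or.inl hq)).add
    (inU_normExt hp hD hL hα hαN)) hrel.symm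

/-- A local cycle on tame inertia gives a unit extension. -/
theorem inU_push_inertia (hp2 : p ≠ 2) (hp : ∀ x : X, p • x = 0) {K L₀ L : Level} (hD : NormData p S X K L₀)
    (hL : L.grp ≤ L₀.grp) (hμ : FixesMu p L.grp) {u : GQ → GQ → Cl}
    (hu : IsZ2 (⊤ : Subgroup GQ) L.grp u)
    (hC : ∀ P : Subgroup GQ, L.grp ≤ P → ∀ a : ℕ, L.grp.relIndex P = p ^ a → ClassModule p P L.grp u)
    {q : Nat.Primes} (hqp : (q : ℕ) ≠ p) {I : Subgroup GQ} (hLI : L.grp ≤ I)
    (hI : I ≤ inertiaAt q ⊔ L.grp) (hX : ∀ t ∈ I, ∀ x : X, t • x = x) {a : ℕ}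
    (ha : L.grp.relIndex I = p ^ a) {v : GQ → X → ℤ} (hv : IsCycle p I L.grp v) :
    InU S (capExt p (⊤ : Subgroup GQ) L.grp u (pushW I v)) := by
  classical
  have hXL : ∀ s ∈ L.grp, ∀ x : X, s • x = x := fun s hs => hX s (hLI hs)
  have hlT := L.lvl (H := (⊤ : Subgroup GQ)) le_top
  have hlI := L.lvl hLI
  obtain ⟨c, hc, hc1, hcu⟩ :=
    exists_local_class hp2 hμ hC hLI (hI.trans (sup_le inertiaAt_le_dec_sup le_sup_right)) ha
  obtain ⟨α, hα, hαN, hrel⟩ := exists_push_rel hXL hu hLI hc hcu hv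
  obtain ⟨b, β, hb, hbu, hbI, hβ, hβN, hsplit⟩ := exists_split_capExt (M := X) hlI hX hc hv
    (U := semiUnit q) fun k hk => exists_normTo_sub_semiUnit L hqp hLI hI ha (csum_z2_mem hlI hc hk) (by
      rw [map_csum I L.grp hlI.fin]
      exact csum_congr I L.grp fun g hg => hc1 g hg k hk)
  have hnb : IsExt (⊤ : Subgroup GQ) L.grp ((normTo (⊤ : Subgroup GQ) I b, 0) : Pre GQ X (Semi q)) := by
    rw [← coresExt_zero_snd]
    exact isExt_coresExt hlT le_top hLI (isExt_zero_snd hb hbI)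
  refine InU.congr ((inU_single hnb (Or.inr ⟨fun x => smul_csum_fixed
    (fun g a ha => smul_mem_semiUnit q ha g) hLI hbu x, fun g => rfl⟩)).add
      ((inU_normExt hp hD hL (Fn.map_mem_symCoc (φ := singleCl q) hβ)
        ((fn_fixed_prod hXL _).2 fun z s hs => by
          show s • singleCl q (β z) = singleCl q (β z)
          rw [← singleCl_smul, (fn_fixed_prod hXL β).1 hβN z s hs])).add
      (inU_normExt hp hD hL hα hαN))) ?_
  refine ExtRel.symm (hrel.trans ?_)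
  have e1 : ExtRel (⊤ : Subgroup GQ) (coresExt (⊤ : Subgroup GQ) I (capExt p I L.grp c v))
      (((normTo (⊤ : Subgroup GQ) I b, 0) : Pre GQ X (Semi q)) + normExt (⊤ : Subgroup GQ) L.grp β) := by
    refine (ExtRel.cores hlT le_top hLI hsplit).trans ((coresExt_add (hlT.fin_quot le_top hLI) _ _).trans
      (ExtRel.add ?_ (coresExt_normExt hlT le_top hLI hβN)))
    rw [coresExt_zero_snd]
    exact ExtRel.refl _ _
  exact (ExtRel.map_add_normExt (A := Semi q) (B := Cl) (singleCl_smul q) hlT e1).add (ExtRel.refl _ _) |>.trans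
    (extRel_add_assoc _ _ _)

end FLTAgent.Global
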