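import Fermat.Agent.Global.Duality.Invariant
import Fermat.Agent.Global.Ext.Cycles

/-!
The pairing between extensions of a finite Galois module by `C` and its first cohomology.
-/

set_option autoImplicit false
set_option linter.unusedSectionVars false
set_option linter.unusedVariables false
set_option synthInstance.maxHeartbeats 100000

noncomputable section

namespace FLTAgent.Global

variable (p : ℕ) [Fact p.Prime] {X : Type*} [AddCommGroup X] [DistribMulAction GQ X]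

/-- A level trivialising `X`, containing `μ_p`, of degree divisible by `p`. -/
structure XLevel (X : Type*) [AddCommGroup X] [DistribMulAction GQ X] (L : Level) : Prop where
  good : GoodLevel p L
  triv : ∀ s ∈ L.grp, ∀ x : X, s • x = x

/-- The pairing. -/
def clPair (e : Pre GQ X Cl) (f : GQ → X) : ZMod p := clInv p (pairC e f)

variable {p}

lemma XLevel.mono {L L' : Level} (h : XLevel p X L) (hL : L'.grp ≤ L.grp) : XLevel p X L' :=
  ⟨h.good.mono hL, fun s hs => h.triv s (hL hs)⟩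

variable {L : Level} {e e' : Pre GQ X Cl} {f f' : GQ → X}

section generic

lemma IsZ2.add' {Γ A : Type*} [Group Γ] [AddCommGroup A] [DistribMulAction Γ A] {H N : Subgroup Γ}
    {c c' : Γ → Γ → A} (h : IsZ2 H N c) (h' : IsZ2 H N c') : IsZ2 H N (c + c') := by
  have e : c + c' = c - (fun g k => (-1 : ℤ) • c' g k) := by
    funext g k; simp
  rw [e]
  exact h.sub (h'.zsmul _)

variable {A : Type*} [AddCommGroup A] [DistribMulAction GQ A]

lemma clZero_pairC_torsion (hp : ∀ x : X, p • x = 0) {e : Pre GQ X A} (he : IsExt (⊤ : Subgroup GQ) L.grp e)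
    {f : GQ → X} (hf : IsZ1 (⊤ : Subgroup GQ) L.grp f) :
    ClZero p (fun g h => p • pairC e f g h) := ClZero.of_isB2 (isB2_nsmul_pairC hp he hf)

lemma clZero_pairC_add_right {e : Pre GQ X A} (he : IsExt (⊤ : Subgroup GQ) L.grp e)
    {f f' : GQ → X} (hf : IsZ1 (⊤ : Subgroup GQ) L.grp f) (hf' : IsZ1 (⊤ : Subgroup GQ) L.grp f') :
    ClZero p (fun g h => pairC e (f + f') g h - (pairC e f + pairC e f') g h) :=
  ClZero.of_isB2 (Z := L) ((isB2_pairC_add_right he hf hf').congr fun g _ h _ => by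
    simp only [Pi.add_apply, sub_sub])

lemma pairC_neg (e : Pre GQ X A) (f : GQ → X) (g h : GQ) : pairC (-e) f g h = -pairC e f g h := by
  simp [pairC, Fn.neg_apply]
  abel

lemma pairC_zsmul (n : ℤ) (e : Pre GQ X A) (f : GQ → X) (g h : GQ) :
    pairC (n • e) f g h = n • pairC e f g h := by
  simp [pairC, Fn.zsmul_apply]

end generic

lemma clTor_pairC (hL : XLevel p X L) (hp : ∀ x : X, p • x = 0) (he : IsExt (⊤ : Subgroup GQ) L.grp e)
    (hf : IsZ1 (⊤ : Subgroup GQ) L.grp f) : ClTor p (pairC e f) :=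
  ⟨⟨L, hL.good.mu, isZ2_pairC hL.triv he hf⟩, clZero_pairC_torsion hp he hf⟩

lemma clPair_add_left (hp2 : p ≠ 2) (hL : XLevel p X L) (hp : ∀ x : X, p • x = 0)
    (he : IsExt (⊤ : Subgroup GQ) L.grp e) (he' : IsExt (⊤ : Subgroup GQ) L.grp e')
    (hf : IsZ1 (⊤ : Subgroup GQ) L.grp f) : clPair p (e + e') f = clPair p e f + clPair p e' f := by
  rw [clPair, clPair, clPair, ← clInv_add hp2 (clTor_pairC hL hp he hf) (clTor_pairC hL hp he' hf)]
  congr 1
  funext g h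
  exact pairC_add e e' f g h

lemma clPair_zsmul_left (hp2 : p ≠ 2) (hL : XLevel p X L) (hp : ∀ x : X, p • x = 0)
    (he : IsExt (⊤ : Subgroup GQ) L.grp e) (hf : IsZ1 (⊤ : Subgroup GQ) L.grp f) (n : ℤ) :
    clPair p (n • e) f = (n : ZMod p) * clPair p e f := by
  rw [clPair, clPair, ← clInv_zsmul hp2 (clTor_pairC hL hp he hf) n]
  congr 1
  funext g h
  exact pairC_zsmul n e f g h

lemma clPair_nsmul_left (hp2 : p ≠ 2) (hL : XLevel p X L) (hp : ∀ x : X, p • x = 0)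
    (he : IsExt (⊤ : Subgroup GQ) L.grp e) (hf : IsZ1 (⊤ : Subgroup GQ) L.grp f) (n : ℕ) :
    clPair p (n • e) f = (n : ZMod p) * clPair p e f := by
  rw [← Int.cast_natCast (R := ZMod p) n, ← clPair_zsmul_left hp2 hL hp he hf]
  exact congrArg (fun x => clPair p x f) (natCast_zsmul e n).symm

lemma clPair_add_right (hp2 : p ≠ 2) (hL : XLevel p X L) (hp : ∀ x : X, p • x = 0)
    (he : IsExt (⊤ : Subgroup GQ) L.grp e)
    (hf : IsZ1 (⊤ : Subgroup GQ) L.grp f) (hf' : IsZ1 (⊤ : Subgroup GQ) L.grp f') :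
    clPair p e (f + f') = clPair p e f + clPair p e f' := by
  rw [clPair, clPair, clPair, ← clInv_add hp2 (clTor_pairC hL hp he hf) (clTor_pairC hL hp he hf')]
  refine clInv_congr hp2 ?_ (clZero_pairC_add_right he hf hf')
  obtain ⟨⟨Z, hZ, hz⟩, -⟩ := clTor_pairC hL hp he hf
  refine ⟨⟨L, hL.good.mu, ?_⟩, ?_⟩
  · exact IsZ2.congr' ((isZ2_pairC hL.triv he hf).add' (isZ2_pairC hL.triv he hf')) fun g h => rfl
  · exact ((clZero_pairC_torsion hp he hf).add (clZero_pairC_torsion hp he hf')).congr fun g h =>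
      (nsmul_add (pairC e f g h) (pairC e f' g h) p).symm

lemma clPair_congr (hp2 : p ≠ 2) (hL : XLevel p X L) (hp : ∀ x : X, p • x = 0)
    (he' : IsExt (⊤ : Subgroup GQ) L.grp e') (hf : IsZ1 (⊤ : Subgroup GQ) L.grp f)
    (h : ExtRel (⊤ : Subgroup GQ) e e') : clPair p e f = clPair p e' f :=
  clInv_congr hp2 (clTor_pairC hL hp he' hf) (ClZero.of_isB2 (h.isB2_pairC hf))

lemma clPair_eq_zero (hp2 : p ≠ 2) {Z : Level} (h : IsB2 (⊤ : Subgroup GQ) Z.grp (pairC e f)) :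
    clPair p e f = 0 := clInv_of_clZero hp2 (ClZero.of_isB2 h)

lemma clPair_dd0 (hp2 : p ≠ 2) (hL : XLevel p X L) (he : IsExt (⊤ : Subgroup GQ) L.grp e) (x : X) :
    clPair p e (dd0 x) = 0 :=
  clPair_eq_zero hp2 (isB2_pairC_dd0 (L.lvl le_top) hL.triv he x)

variable {u : GQ → GQ → Cl} {w : GQ → X → ℤ}

lemma clPair_normExt (hp2 : p ≠ 2) (hL : XLevel p X L) {α : Fn (X × X) Cl} (hα : α ∈ symCoc)
    (hαL : ∀ s ∈ L.grp, s • α = α) (hf : IsZ1 (⊤ : Subgroup GQ) L.grp f) :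
    clPair p (normExt (⊤ : Subgroup GQ) L.grp α) f = 0 :=
  clPair_eq_zero hp2 (isB2_pairC_normExt (L.lvl le_top) hL.triv hα hαL hf)

/-- The normalisation of the pairing at a level. -/
def capUnit (p : ℕ) [Fact p.Prime] (L : Level) (u : GQ → GQ → Cl) : ZMod p :=
  clInv p (fun g h => ((L.grp.index / p : ℕ) : ℤ) • u g h)

lemma clZero_sub_zsmul_eq {A : Type*} [AddCommGroup A] [DistribMulAction GQ A] {z v : GQ → GQ → A}
    {k r : ℤ} {m : ℕ} (hk : k = r * m) (h : ClZero p (fun g h => z g h - k • v g h)) :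
    ClZero p (fun g h => z g h - r • ((m : ℤ) • v g h)) :=
  h.congr fun g k => by rw [hk, mul_smul]

theorem clPair_capExt (hp2 : p ≠ 2) (hL : XLevel p X L) (hu : IsZ2 (⊤ : Subgroup GQ) L.grp u)
    (hw : IsCycle p (⊤ : Subgroup GQ) L.grp w) (hf : IsZ1 (⊤ : Subgroup GQ) L.grp f) :
    clPair p (capExt p (⊤ : Subgroup GQ) L.grp u w) f
      = (zval (⊤ : Subgroup GQ) L.grp w f : ZMod p) * capUnit p L u := by
  obtain ⟨k, hk, hb⟩ := exists_isB2_pairC_capExt (L.lvl le_top) hL.triv (Fact.out : p.Prime).ne_zero hu hw hf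
  rw [Subgroup.relIndex_top_right] at hk
  have hk' : k = zval (⊤ : Subgroup GQ) L.grp w f * ((L.grp.index / p : ℕ) : ℤ) := by
    refine mul_left_cancel₀ (Int.natCast_ne_zero.2 (Fact.out : p.Prime).ne_zero) (hk.trans ?_)
    rw [mul_comm, mul_left_comm, ← Nat.cast_mul, Nat.mul_div_cancel' hL.good.dvd]
  have ht := clTor_smul_u hL.good hu
  rw [capUnit, ← clInv_zsmul hp2 ht, clPair]
  refine clInv_congr hp2 ⟨⟨L, hL.good.mu, (hu.zsmul _).zsmul _⟩, ?_⟩ (clZero_sub_zsmul_eq hk' (ClZero.of_isB2 hb))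
  exact (ht.2.zsmul (zval (⊤ : Subgroup GQ) L.grp w f)).congr fun g h =>
    (nsmul_zsmul_comm (A := Cl) p (zval (⊤ : Subgroup GQ) L.grp w f) _).symm

lemma capUnit_ne_zero (hp2 : p ≠ 2) (hL : GoodLevel p L) (hu : IsZ2 (⊤ : Subgroup GQ) L.grp u)
    (hC : ∀ P : Subgroup GQ, L.grp ≤ P → ∀ a : ℕ, L.grp.relIndex P = p ^ a → ClassModule p P L.grp u) :
    capUnit p L u ≠ 0 := clInv_smul_u_ne_zero hp2 hL hu hC

/-- Every functional on a group of cocycles that kills coboundaries is given by pairing with an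
extension of the level. -/
theorem exists_ext_of_functional (hp2 : p ≠ 2) (hL : XLevel p X L) (hp : ∀ x : X, p • x = 0)
    (Z : AddSubgroup (Cfun X (⊤ : Subgroup GQ) L.grp)) (φ : Z →+ ZMod p)
    (h0 : ∀ x : X, ∃ h : toC (⊤ : Subgroup GQ) L.grp (dd0 x) ∈ Z, φ ⟨_, h⟩ = 0) :
    ∃ e : Pre GQ X Cl, IsExt (⊤ : Subgroup GQ) L.grp e ∧ ∀ f : GQ → X, IsZ1 (⊤ : Subgroup GQ) L.grp f →
      ∀ h : toC (⊤ : Subgroup GQ) L.grp f ∈ Z, clPair p e f = φ ⟨_, h⟩ := by
  obtain ⟨u, hu, hC⟩ := exists_classModule hp2 L hL.good.mu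
  have hε := capUnit_ne_zero hp2 hL.good hu hC
  obtain ⟨w, hw, hwv⟩ := exists_cycle_on hp (L.lvl (H := (⊤ : Subgroup GQ)) le_top) Z
    ((AddMonoidHom.mulLeft (capUnit p L u)⁻¹).comp φ) fun x => by
      obtain ⟨h, h'⟩ := h0 x
      exact ⟨h, by simp [h']⟩
  refine ⟨capExt p (⊤ : Subgroup GQ) L.grp u w,
    isExt_capExt (L.lvl le_top) hL.triv (Fact.out : p.Prime).ne_zero hu hw, fun f hf h => ?_⟩
  rw [clPair_capExt hp2 hL hu hw hf, hwv f h, AddMonoidHom.comp_apply]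
  show (capUnit p L u)⁻¹ * φ ⟨_, h⟩ * capUnit p L u = _
  rw [mul_comm, ← mul_assoc, mul_inv_cancel₀ hε, one_mul]

end FLTAgent.Global
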