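import Fermat.Agent.Global.Duality.Local
import Fermat.Agent.Global.Fund.LocalStructure

/-!
Inertia at the fixed place, and valuations of norms in totally tamely ramified layers.
-/

set_option autoImplicit false
set_option linter.unusedSectionVars false
set_option synthInstance.maxHeartbeats 100000

noncomputable section

namespace FLTAgent.Global

open scoped Pointwise

lemma coe_valField_zpow {L : Level} {q : Nat.Primes} (y : valField L q) (n : ℤ) :
    ((y ^ n : valField L q) : Kq q) = (y : Kq q) ^ n := map_zpow₀ (valField L q).val y n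

/-- The inertia group of the fixed place over `q`. -/
def inertiaAt (q : Nat.Primes) : Subgroup GQ := (padicPlace (q : ℕ)).inertiaSubgroupIn ℚ

variable {q : Nat.Primes} {L : Level}

lemma norm_emb_lt_one_iff (z : QQbar) : z ∈ (padicPlace (q : ℕ)).nonunits ↔ ‖emb q z‖ < 1 := by
  rw [ValuationSubring.mem_nonunits_iff_or]
  constructor
  · rintro (rfl | h)
    · simp
    · rw [mem_padicPlace_iff, map_inv₀, nnnorm_inv, not_le] at h
      have h0 : ‖emb q z‖₊ ≠ 0 := fun h0 => by rw [h0, inv_zero] at h; exact absurd h (by simp)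
      exact_mod_cast (one_lt_inv₀ (pos_iff_ne_zero.mpr h0)).mp h
  · intro h
    by_cases hz : z = 0
    · exact Or.inl hz
    · refine Or.inr fun hmem => ?_
      rw [mem_padicPlace_iff, map_inv₀, nnnorm_inv] at hmem
      have hpos : 0 < ‖emb q z‖₊ := by simpa [nnnorm_pos] using hz
      exact absurd (by exact_mod_cast (inv_le_one₀ hpos).mp hmem : (1 : ℝ) ≤ ‖emb q z‖) (not_le.mpr h)

lemma liesOverPrime_padicPlace (q : Nat.Primes) : (padicPlace (q : ℕ)).LiesOverPrime (q : ℕ) := by
  show ((q : ℕ) : QQbar) ∈ _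
  rw [norm_emb_lt_one_iff, map_natCast, norm_natCast_self]
  exact inv_lt_one_of_one_lt₀ (by exact_mod_cast q.2.one_lt)

lemma inertiaAt_le_of_unrAt (h : L.UnrAt q) : inertiaAt q ≤ L.grp := h _ (liesOverPrime_padicPlace q)

lemma mem_decomposition_of_mem_inertiaAt {g : GQ} (hg : g ∈ inertiaAt q) :
    g • padicPlace (q : ℕ) = padicPlace (q : ℕ) := by
  obtain ⟨d, -, rfl⟩ := hg
  exact MulAction.mem_stabilizer_iff.1 d.2

lemma norm_sub_lt_of_mem_inertiaAt {g : GQ} (hg : g ∈ inertiaAt q) {x : QQbar} (hx : ‖emb q x‖ ≤ 1) :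
    ‖emb q (g x) - emb q x‖ < 1 := by
  obtain ⟨d, hd, rfl⟩ := hg
  have hx' : x ∈ padicPlace (q : ℕ) := by rw [mem_padicPlace_iff]; exact_mod_cast hx
  have h1 : IsLocalRing.residue _ (d • (⟨x, hx'⟩ : padicPlace (q : ℕ))) = IsLocalRing.residue _ (⟨x, hx'⟩) := by
    have h2 : MulSemiringAction.toRingAut _ (IsLocalRing.ResidueField (padicPlace (q : ℕ))) d = 1 := hd
    exact DFunLike.congr_fun h2 (IsLocalRing.residue _ ⟨x, hx'⟩)
  have h3 := (IsLocalRing.residue_eq_zero_iff _).1 ((map_sub _ _ _).trans (sub_eq_zero.2 h1))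
  rw [← ValuationSubring.coe_mem_nonunits_iff, norm_emb_lt_one_iff] at h3
  rw [← map_sub]
  exact h3

/-- The decomposition group of the fixed place is `dec q` up to any level. -/
theorem mem_dec_sup_of_decomposition {g : GQ} (hg : g • padicPlace (q : ℕ) = padicPlace (q : ℕ)) :
    g ∈ dec q ⊔ L.grp := by
  classical
  refine by_contra fun hne => ?_
  have hp : place L q g ≠ place L q 1 := fun h => hne (place_eq_place_one_iff.1 h)
  obtain ⟨x, hx, hxv⟩ := exists_qpow L q (fun z => if place L q z = place L q 1 then 1 else 0)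
    (fun τ z => by simp only [place_loc_mul]) (fun z s hs => by simp only [place_mul_grp z hs])
  obtain ⟨a, -, ha⟩ := exists_principal_approx L le_rfl 1 one_ne_zero {q}
    (x := single q x) (fun s hs => by rw [← single_smul, hx s hs])
  obtain ⟨y, ⟨hyu, -⟩, hy⟩ := ha q (Finset.mem_singleton_self q)
  rw [one_nsmul, map_sub, comp_single, sub_eq_iff_eq_add] at hy
  have hn : ∀ z : GQ, ‖emb q (z (qval a))‖ = ‖sval x z‖ := fun z => by
    rw [hy, sval_add, norm_mul, hyu z, one_mul, sval_principal]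
  have h1 : (qval a) ∈ (padicPlace (q : ℕ)).nonunits := by
    rw [norm_emb_lt_one_iff, show (qval a) = (1 : GQ) (qval a) from rfl,
      hn, hxv, if_pos rfl, zpow_one, norm_natCast_self]
    exact inv_lt_one_of_one_lt₀ (by exact_mod_cast q.2.one_lt)
  have h2 : g (qval a) ∈ (padicPlace (q : ℕ)).nonunits := by
    rw [← hg, ValuationSubring.mem_nonunits_iff_or]
    rcases (ValuationSubring.mem_nonunits_iff_or _).1 h1 with h | h
    · exact Or.inl (by rw [h, map_zero])
    · refine Or.inr fun hmem => h ?_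
      rw [← map_inv₀, ← AlgEquiv.smul_def, ValuationSubring.smul_mem_pointwise_smul_iff] at hmem
      exact hmem
  rw [norm_emb_lt_one_iff, hn, hxv, if_neg hp, zpow_zero, norm_one] at h2
  exact lt_irrefl _ h2

lemma inertiaAt_le_dec_sup : inertiaAt q ≤ dec q ⊔ L.grp := fun _ hg =>
  mem_dec_sup_of_decomposition (mem_decomposition_of_mem_inertiaAt hg)

/-- The completion is generated up to congruences by the level. -/
theorem exists_emb_close (y : valField L q) (hy : y ≠ 0) (hy1 : ‖(y : Kq q)‖ ≤ 1) :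
    ∃ x ∈ L.fld, ‖(y : Kq q) - emb q x‖ < 1 := by
  have := finite_resField L q
  have := Fintype.ofFinite (ResField L q)
  set m := Fintype.card (ResField L q) - 1 with hm
  have hm0 : m ≠ 0 := by have := Fintype.one_lt_card (α := ResField L q); omega
  obtain ⟨Y, hY, -, hY1⟩ := exists_atPlace_value L q 1 y hy
  obtain ⟨a, ha, ha'⟩ := exists_principal_approx L le_rfl m hm0 {q}
    (x := single q Y) (fun s hs => by rw [← single_smul, hY s hs])
  obtain ⟨z, ⟨hzu, hzf⟩, hz⟩ := ha' q (Finset.mem_singleton_self q)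
  rw [map_sub, comp_single, sub_eq_iff_eq_add] at hz
  set x : QQbar := (qval a) with hx
  have hxL : x ∈ L.fld := by
    have h := L.fin; have := L.gal
    rw [← InfiniteGalois.fixedField_fixingSubgroup L.fld, IntermediateField.mem_fixedField_iff]
    exact fun s hs => congrArg (qval) (ha s hs)
  have hpow : ∀ (k : ℕ) (w : Semi q), sval (k • w) 1 = sval w 1 ^ k := fun k w => by
    induction k with
    | zero => simp
    | succ k ih => rw [succ_nsmul, sval_add, ih, pow_succ]
  have he : (y : Kq q) = sval z 1 ^ m * emb q x := by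
    rw [← hY1, hz, sval_add, hpow, sval_principal]; rfl
  obtain ⟨w, hw⟩ : ∃ w : valInt L q, ((w : valField L q) : Kq q) = sval z 1 :=
    ⟨⟨⟨_, sval_mem_valField hzf 1⟩, (hzu 1).le⟩, rfl⟩
  have hw0 : res₀ w ≠ (0 : ResField L q) := fun h => by
    have := res₀_eq_zero.1 h
    rw [hw, hzu 1] at this
    exact lt_irrefl _ this
  have h1 : ‖sval z 1 ^ m - 1‖ < 1 := by
    have h2 : res₀ (w ^ m - 1) = (0 : ResField L q) := by
      show Ideal.Quotient.mk (valMax L q) _ = 0
      rw [map_sub, map_pow, map_one, hm, FiniteField.pow_card_sub_one_eq_one _ hw0, sub_self]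
    have := res₀_eq_zero.1 h2
    simpa [hw] using this
  refine ⟨x, hxL, ?_⟩
  have hn : ‖emb q x‖ = ‖(y : Kq q)‖ := by rw [he, norm_mul, norm_pow, hzu 1, one_pow, one_mul]
  rw [show (y : Kq q) - emb q x = (sval z 1 ^ m - 1) * emb q x by rw [he]; ring, norm_mul, hn]
  exact mul_lt_one_of_nonneg_of_lt_one_left (norm_nonneg _) h1 hy1

/-- Inertia acts trivially on the residues of the completion. -/
theorem norm_sub_lt_of_inertia {τ : Gq q} {g s : GQ} (hg : g ∈ inertiaAt q ⊔ L.grp) (hs : s ∈ L.grp)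
    (he : g = loc q τ * s) (y : valField L q) (hy1 : ‖(y : Kq q)‖ ≤ 1) : ‖τ y - (y : Kq q)‖ < 1 := by
  rcases eq_or_ne y 0 with rfl | hy
  · simp
  obtain ⟨x, hx, hxy⟩ := exists_emb_close y hy hy1
  have hn := L.grp_normal
  rw [← SetLike.mem_coe, Subgroup.mul_normal] at hg
  obtain ⟨ι, hι, s', hs', rfl⟩ := hg
  have hfix : ∀ u ∈ L.grp, u x = x := fun u hu => (IntermediateField.mem_fixingSubgroup_iff _ _).1 hu x hx
  have hτx : τ (emb q x) = emb q (ι x) := by
    rw [← emb_loc]
    have := congrArg (fun u : GQ => u x) he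
    simp only [AlgEquiv.mul_apply, hfix s hs, hfix s' hs'] at this
    rw [this]
  have hx1 : ‖emb q x‖ ≤ 1 := by
    rw [show emb q x = (y : Kq q) + -((y : Kq q) - emb q x) by ring]
    exact (IsUltrametricDist.norm_add_le_max _ _).trans (max_le hy1 (by rw [norm_neg]; exact hxy.le))
  rw [show τ y - (y : Kq q) = τ ((y : Kq q) - emb q x) + ((τ (emb q x) - emb q x) + -((y : Kq q) - emb q x)) by
    rw [map_sub]; ring]
  refine (IsUltrametricDist.norm_add_le_max _ _).trans_lt (max_lt (by rwa [norm_gq]) ?_)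
  refine (IsUltrametricDist.norm_add_le_max _ _).trans_lt (max_lt ?_ (by rwa [norm_neg]))
  rw [hτx]
  exact norm_sub_lt_of_mem_inertiaAt hι hx1

section tame

variable {G : Subgroup (LocGal L q)}

lemma norm_div_self (σ : LocGal L q) {y : valField L q} (hy : y ≠ 0) :
    ‖((σ y / y : valField L q) : Kq q)‖ = 1 := by
  rw [IntermediateField.coe_div, norm_div, norm_locGal, div_self (norm_ne_zero_iff.2 (by simpa using hy))]

/-- The residue of `σ y / y`. -/
def tameChar (σ : LocGal L q) (y : valField L q) (hy : y ≠ 0) : ResField L q :=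
  res₀ ⟨σ y / y, (norm_div_self σ hy).le⟩

lemma tameChar_eq_one_of_norm (hG : ∀ σ ∈ G, ∀ y : valField L q, ‖(y : Kq q)‖ ≤ 1 →
      ‖((σ y : Kq q)) - y‖ < 1) {σ : LocGal L q} (hσ : σ ∈ G) {y : valField L q} (hy : y ≠ 0)
    (h1 : ‖(y : Kq q)‖ = 1) : tameChar σ y hy = 1 := by
  show Ideal.Quotient.mk (valMax L q) _ = 1
  rw [← map_one (Ideal.Quotient.mk (valMax L q)), Ideal.Quotient.eq, mem_valMax]
  push_cast
  rw [div_sub_one (by simpa using hy), norm_div, h1, div_one]
  exact hG σ hσ y h1.le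

lemma tameChar_mul (σ : LocGal L q) {y z : valField L q} (hy : y ≠ 0) (hz : z ≠ 0) :
    tameChar σ (y * z) (mul_ne_zero hy hz) = tameChar σ y hy * tameChar σ z hz := by
  rw [tameChar, tameChar, tameChar, res₀, res₀, res₀, ← map_mul]
  refine congrArg _ (Subtype.ext ?_)
  show σ (y * z) / (y * z) = σ y / y * (σ z / z)
  rw [map_mul, div_mul_div_comm]

lemma tameChar_one (σ : LocGal L q) : tameChar σ (1 : valField L q) one_ne_zero = 1 := by
  show Ideal.Quotient.mk (valMax L q) _ = 1
  rw [← map_one (Ideal.Quotient.mk (valMax L q))]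
  exact congrArg _ (Subtype.ext (by show σ 1 / 1 = 1; rw [map_one, div_one]))

lemma tameChar_zpow (σ : LocGal L q) {y : valField L q} (hy : y ≠ 0) (k : ℤ) :
    tameChar σ (y ^ k) (zpow_ne_zero k hy) = tameChar σ y hy ^ k := by
  have hpow : ∀ n : ℕ, tameChar σ (y ^ n) (pow_ne_zero n hy) = tameChar σ y hy ^ n := by
    intro n
    induction n with
    | zero => simpa using tameChar_one σ
    | succ n ih => simp only [pow_succ, tameChar_mul σ (pow_ne_zero n hy) hy, ih]
  have hne : tameChar σ y hy ≠ 0 := fun h => by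
    have := res₀_eq_zero.1 h
    rw [norm_div_self σ hy] at this
    exact lt_irrefl _ this
  rcases k with n | n
  · simpa using hpow n
  · simp only [zpow_negSucc]
    refine eq_inv_of_mul_eq_one_left ?_
    rw [← hpow, ← tameChar_mul]
    simp only [inv_mul_cancel₀ (pow_ne_zero (n + 1) hy), tameChar_one]

/-- In a group acting trivially on residues and of order prime to `q`, valuations of fixed
elements are divisible by the order. -/
theorem card_dvd_of_fixed (hG : ∀ σ ∈ G, ∀ y : valField L q, ‖(y : Kq q)‖ ≤ 1 →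
      ‖((σ y : Kq q)) - y‖ < 1) (hcop : ¬ (q : ℕ) ∣ Nat.card G)
    {ϖ : valField L q} (hϖ : ϖ ≠ 0)
    (hgen : ∀ y : valField L q, y ≠ 0 → ∃ n : ℤ, ‖(y : Kq q)‖ = ‖(ϖ : Kq q)‖ ^ n)
    {x : valField L q} {k : ℤ} (hx : ‖(x : Kq q)‖ = ‖(ϖ : Kq q)‖ ^ k)
    (hfix : ∀ σ ∈ G, σ x = x) : (Nat.card G : ℤ) ∣ k := by
  have hdecomp : ∀ σ ∈ G, ∀ y : valField L q, ∀ hy : y ≠ 0, ∀ n : ℤ,
      ‖(y : Kq q)‖ = ‖(ϖ : Kq q)‖ ^ n → tameChar σ y hy = tameChar σ ϖ hϖ ^ n := by
    intro σ hσ y hy n hn
    have hu : y * (ϖ ^ n)⁻¹ ≠ 0 := mul_ne_zero hy (inv_ne_zero (zpow_ne_zero n hϖ))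
    have hu1 : ‖((y * (ϖ ^ n)⁻¹ : valField L q) : Kq q)‖ = 1 := by
      push_cast
      simp only [norm_mul, norm_inv, coe_valField_zpow, norm_zpow, hn]
      exact mul_inv_cancel₀ (zpow_ne_zero n (norm_ne_zero_iff.2 (by simpa using hϖ)))
    have h1 := tameChar_mul σ hu (zpow_ne_zero n hϖ)
    rw [tameChar_eq_one_of_norm hG hσ hu hu1, one_mul, tameChar_zpow σ hϖ] at h1
    rw [← h1]
    simp only [tameChar, inv_mul_cancel_right₀ (zpow_ne_zero n hϖ)]
  let θ : G →* ResField L q :=
  { toFun := fun σ => tameChar (σ : LocGal L q) ϖ hϖ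
    map_one' := by
      show Ideal.Quotient.mk (valMax L q) _ = 1
      rw [← map_one (Ideal.Quotient.mk (valMax L q))]
      exact congrArg _ (Subtype.ext (div_self hϖ))
    map_mul' := fun σ τ => by
      have hτ : ((τ : LocGal L q)) ϖ / ϖ ≠ 0 := div_ne_zero (by simpa using hϖ) hϖ
      have h2 := tameChar_eq_one_of_norm hG σ.2 hτ (norm_div_self _ hϖ)
      rw [mul_comm (tameChar (σ : LocGal L q) ϖ hϖ), ← one_mul (tameChar (τ : LocGal L q) ϖ hϖ), ← h2]
      simp only [tameChar, res₀, ← map_mul]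
      refine congrArg _ (Subtype.ext ?_)
      show (σ : LocGal L q) ((τ : LocGal L q) ϖ) / ϖ = _
      simp only [MulMemClass.coe_mul, map_div₀]
      have h3 : (σ : LocGal L q) ϖ ≠ 0 := by simpa using hϖ
      field_simp
      rw [mul_div_cancel_right₀ _ (by simpa using hϖ)] }
  have hinj : Function.Injective θ := by
    rw [injective_iff_map_eq_one']
    intro σ
    refine ⟨fun h1 => ?_, fun h => by rw [h, map_one]⟩
    have hall : ∀ i : ℕ, ∀ y : valField L q, y ≠ 0 →
        ‖((((σ : LocGal L q) ^ i) y : Kq q)) - y‖ < ‖(y : Kq q)‖ := by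
      intro i y hy
      obtain ⟨n, hn⟩ := hgen y hy
      have hmem : (σ : LocGal L q) ^ i ∈ G := pow_mem σ.2 i
      have h : tameChar ((σ : LocGal L q) ^ i) y hy = 1 := by
        rw [hdecomp _ hmem y hy n hn]
        show θ ⟨_, hmem⟩ ^ n = 1
        rw [show (⟨_, hmem⟩ : G) = σ ^ i from rfl, map_pow, h1, one_pow, one_zpow]
      rw [tameChar, res₀, ← map_one (Ideal.Quotient.mk (valMax L q)), Ideal.Quotient.eq, mem_valMax] at h
      push_cast at h
      have hy' : (y : Kq q) ≠ 0 := by simpa using hy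
      rwa [div_sub_one hy', norm_div, div_lt_one (norm_pos_iff.2 hy')] at h
    refine Subtype.ext (AlgEquiv.ext fun y => by_contra fun hne => ?_)
    set d : valField L q := (σ : LocGal L q) y - y with hd
    have hd0 : d ≠ 0 := sub_ne_zero.2 hne
    set N := Nat.card G
    have hsum : ∑ i ∈ Finset.range N, ((σ : LocGal L q) ^ i) d = 0 := by
      have hsucc : ∀ i, ((σ : LocGal L q) ^ i) d = ((σ : LocGal L q) ^ (i + 1)) y - ((σ : LocGal L q) ^ i) y :=
        fun i => by rw [hd, map_sub, pow_succ, AlgEquiv.mul_apply]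
      rw [Finset.sum_congr rfl fun i _ => hsucc i, Finset.sum_range_sub (fun i => ((σ : LocGal L q) ^ i) y),
        ← SubgroupClass.coe_pow, pow_card_eq_one']
      simp
    have h2 : ‖∑ i ∈ Finset.range N, (((((σ : LocGal L q) ^ i) d : Kq q)) - d)‖ < ‖(d : Kq q)‖ := by
      rcases (Finset.range N).eq_empty_or_nonempty with h | h
      · rw [h, Finset.sum_empty, norm_zero]; simpa using hd0
      · obtain ⟨i, -, hi⟩ := IsUltrametricDist.exists_norm_finsetSum_le_of_nonempty h
          (fun i => ((((σ : LocGal L q) ^ i) d : Kq q)) - d)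
        exact hi.trans_lt (hall i d hd0)
    rw [Finset.sum_sub_distrib, ← AddSubmonoidClass.coe_finsetSum, hsum, Finset.sum_const,
      Finset.card_range, ZeroMemClass.coe_zero, zero_sub, norm_neg, nsmul_eq_mul, norm_mul,
      ← map_natCast (algebraMap ℚ_[(q : ℕ)] (Kq q)), norm_algebraMap',
      Padic.norm_natCast_eq_one_iff.2 ((Nat.coprime_comm.1 (q.2.coprime_iff_not_dvd.2 hcop)).symm),
      one_mul] at h2
    exact lt_irrefl _ h2
  have : IsCyclic G := isCyclic_of_injective_ringHom θ hinj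
  obtain ⟨σ, hσ⟩ := IsCyclic.exists_generator (α := G)
  rw [← orderOf_eq_card_of_forall_mem_zpowers hσ,
    ← orderOf_injective θ.toHomUnits (fun a b h => hinj (congrArg Units.val h)) σ,
    orderOf_dvd_iff_zpow_eq_one, Units.ext_iff, Units.val_zpow_eq_zpow_val, Units.val_one]
  show tameChar (σ : LocGal L q) ϖ hϖ ^ k = 1
  have hx0 : x ≠ 0 := fun h => by
    rw [h, ZeroMemClass.coe_zero, norm_zero] at hx
    exact zpow_ne_zero k (by simpa using hϖ) hx.symm
  rw [← hdecomp _ σ.2 x hx0 k hx]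
  show Ideal.Quotient.mk (valMax L q) _ = 1
  rw [← map_one (Ideal.Quotient.mk (valMax L q))]
  exact congrArg _ (Subtype.ext (by show _ / x = 1; rw [hfix _ σ.2, div_self hx0]))

end tame

/-- A `p`-group inside inertia, `q ≠ p`, is totally tamely ramified: valuations of fixed elements
are valuations of norms. -/
theorem exists_normTo_sub_semiUnit {p : ℕ} [Fact p.Prime] (L : Level) {q : Nat.Primes} (hqp : (q : ℕ) ≠ p)
    {I : Subgroup GQ} (hLI : L.grp ≤ I) (hI : I ≤ inertiaAt q ⊔ L.grp) {a : ℕ}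
    (hidx : L.grp.relIndex I = p ^ a) {x : Semi q} (hx : x ∈ fixSub (A := Semi q) I)
    (hx1 : atPlace L q 1 x = x) :
    ∃ z ∈ fixSub (A := Semi q) L.grp, x - normTo I L.grp z ∈ semiUnit q := by
  classical
  have hxL : x ∈ fixSub (A := Semi q) L.grp := fun s hs => hx s (hLI hs)
  have hdec : I ≤ dec q ⊔ L.grp := hI.trans (sup_le inertiaAt_le_dec_sup le_sup_right)
  have hD : ∀ t ∈ I, place L q (1 * t) = place L q 1 := fun t ht => by
    rw [one_mul]; exact place_eq_place_one_iff.2 (hdec ht)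
  set φ := placeHom L q I 1 with hφ
  have hcard : Nat.card φ.range = L.grp.relIndex I := by
    have hsub : placeSub L q I 1 = I := le_antisymm (placeSub_le L q I 1) fun t ht => ⟨ht, hD t ht⟩
    have hker : φ.ker = L.grp.subgroupOf (placeSub L q I 1) := by
      ext h; exact ⟨fun h1 => mem_grp_of_placeHom h1, fun h1 => placeHom_of_mem h1⟩
    calc Nat.card φ.range = φ.ker.index := (Subgroup.index_ker φ).symm
      _ = L.grp.relIndex (placeSub L q I 1) := by rw [hker]; rfl
      _ = _ := by rw [hsub]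
  obtain ⟨ϖ, e, he0, he, hgen⟩ := exists_uniformiser L q
  have hϖ : ϖ ≠ 0 := fun h => by
    rw [h, ZeroMemClass.coe_zero, norm_zero, zero_pow he0.ne'] at he
    exact (inv_ne_zero (Nat.cast_ne_zero.2 q.2.ne_zero)) he.symm
  obtain ⟨y, hy⟩ : ∃ y : valField L q, (y : Kq q) = sval x 1 := ⟨⟨_, sval_mem_valField hxL 1⟩, rfl⟩
  obtain ⟨k, hk⟩ := hgen y fun h => sval_ne_zero x 1 (by rw [← hy, h]; rfl)
  obtain ⟨j, rfl⟩ : (Nat.card φ.range : ℤ) ∣ k := by
    refine card_dvd_of_fixed ?_ ?_ hϖ hgen hk ?_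
    · rintro _ ⟨h, rfl⟩ w hw
      obtain ⟨τ, s, hs, e'⟩ := exists_loc_of_mem_placeSub h.2
      rw [placeHom_eq hs e', locRes_apply]
      exact norm_sub_lt_of_inertia (hI h.2.1) hs (by simpa using e') w hw
    · rw [hcard, hidx]
      exact fun hd => hqp ((Nat.prime_dvd_prime_iff_eq q.2 Fact.out).1 (q.2.dvd_of_dvd_pow hd))
    · rintro _ ⟨h, rfl⟩
      refine Subtype.ext ?_
      rw [← sval_mul_placeHom hxL h hy, ← sval_smul, hx h h.2.1, hy]
  obtain ⟨z, hz, hz1, hzv⟩ := exists_atPlace_value L q 1 (ϖ ^ j) (zpow_ne_zero j hϖ)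
  have hnorm : ∀ (w : Semi q), w ∈ fixSub (A := Semi q) L.grp → atPlace L q 1 w = w → ∀ g,
      ‖sval w g‖ = if place L q g = place L q 1 then ‖sval w 1‖ else 1 := by
    intro w hw hw1 g
    split_ifs with hg
    · obtain ⟨τ, s, hs, rfl⟩ := place_eq_iff.1 hg.symm
      rw [sval_mul_grp hw _ hs, sval_loc, norm_gq]
    · rw [← hw1, sval_atPlace, if_neg hg, norm_one]
  refine ⟨z, hz, fun g => ?_⟩
  have := (L.lvl hLI).fin
  let _ := Fintype.ofFinite (↥I ⧸ L.grp.subgroupOf I)
  have hN : ‖sval (normTo I L.grp z) g‖ = ‖sval z g‖ ^ L.grp.relIndex I := by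
    rw [normTo, csum_eq_sum, sval_sum, norm_prod, Subgroup.relIndex, Subgroup.index, Nat.card_eq_fintype_card,
      ← Finset.card_univ, ← Finset.prod_const]
    refine Finset.prod_congr rfl fun c _ => ?_
    have ht := hD _ (rep_mem I L.grp c)
    rw [one_mul] at ht
    rw [sval_smul, hnorm z hz hz1, hnorm z hz hz1 g]
    have hiff : place L q (g * rep I L.grp c) = place L q 1 ↔ place L q g = place L q 1 := by
      refine ⟨fun h => ?_, fun h => by rw [place_mul_congr h, one_mul, ht]⟩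
      have h1 := place_mul_congr h (rep I L.grp c)⁻¹
      have h2 := place_mul_congr ht (rep I L.grp c)⁻¹
      rw [mul_inv_cancel_right] at h1
      rw [mul_inv_cancel] at h2
      rw [h1, ← h2]
    simp only [hiff]
  rw [sub_eq_add_neg, sval_add, sval_neg, norm_mul, norm_inv, hN, hnorm x hxL hx1, hnorm z hz hz1]
  split_ifs
  · rw [← hy, hk, hzv, coe_valField_zpow, norm_zpow, ← zpow_natCast (_ ^ j), ← zpow_mul, hcard,
      mul_comm j, mul_inv_cancel₀ (zpow_ne_zero _ (norm_ne_zero_iff.2 (by simpa using hϖ)))]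
  · simp

end FLTAgent.Global
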